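import Mathlib

/-!
# "Nice" functions on the upper half plane and their q-expansions

A function `f : ℍ → ℂ` is *nice* if it is holomorphic, `1`-periodic and bounded at `i∞`.
Nice functions form a `ℂ`-subalgebra of `ℍ → ℂ` on which `qExpansion 1` is an injective
`ℂ`-algebra homomorphism to `ℂ⟦X⟧`.
-/

open UpperHalfPlane Function
open scoped MatrixGroups ModularForm Manifold

namespace Fermat.Agent.S23

/-- Holomorphic, `1`-periodic, bounded at `i∞`. -/
def Nice (f : ℍ → ℂ) : Prop :=
  Periodic (f ∘ ofComplex) ((1 : ℝ) : ℂ) ∧ MDiff f ∧ IsBoundedAtImInfty f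

namespace Nice

variable {f g : ℍ → ℂ}

theorem analyticAt (hf : Nice f) : AnalyticAt ℂ (cuspFunction 1 f) 0 :=
  analyticAt_cuspFunction_zero one_pos hf.1 hf.2.1 hf.2.2

theorem add (hf : Nice f) (hg : Nice g) : Nice (f + g) :=
  ⟨fun z ↦ by
    have h1 := hf.1 z
    have h2 := hg.1 z
    simp only [comp_apply, Pi.add_apply] at h1 h2 ⊢
    rw [h1, h2], hf.2.1.add hg.2.1, hf.2.2.add hg.2.2⟩

theorem mul (hf : Nice f) (hg : Nice g) : Nice (f * g) :=
  ⟨fun z ↦ by
    have h1 := hf.1 z
    have h2 := hg.1 z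
    simp only [comp_apply, Pi.mul_apply] at h1 h2 ⊢
    rw [h1, h2], hf.2.1.mul hg.2.1, hf.2.2.mul hg.2.2⟩

theorem const (c : ℂ) : Nice (fun _ ↦ c) :=
  ⟨fun _ ↦ rfl, mdifferentiable_const, Filter.const_boundedAtFilter _ c⟩

theorem one : Nice (1 : ℍ → ℂ) := const 1

theorem zero : Nice (0 : ℍ → ℂ) := const 0

theorem smul (c : ℂ) (hf : Nice f) : Nice (c • f) := by
  have : c • f = (fun _ ↦ c) * f := by ext z; simp
  rw [this]
  exact (const c).mul hf

theorem neg (hf : Nice f) : Nice (-f) := by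
  have : -f = (-1 : ℂ) • f := by ext z; simp
  rw [this]
  exact hf.smul _

theorem sub (hf : Nice f) (hg : Nice g) : Nice (f - g) := by
  rw [sub_eq_add_neg]
  exact hf.add hg.neg

theorem pow (hf : Nice f) (n : ℕ) : Nice (f ^ n) := by
  induction n with
  | zero => simpa using one
  | succ n ih => rw [pow_succ]; exact ih.mul hf

theorem sum {ι : Type*} (s : Finset ι) (F : ι → ℍ → ℂ) (hF : ∀ i ∈ s, Nice (F i)) :
    Nice (∑ i ∈ s, F i) := by
  classical
  induction s using Finset.induction_on with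
  | empty => simpa using zero
  | insert a s ha ih =>
    rw [Finset.sum_insert ha]
    exact (hF a (Finset.mem_insert_self a s)).add
      (ih fun i hi ↦ hF i (Finset.mem_insert_of_mem hi))

theorem prod {ι : Type*} (s : Finset ι) (F : ι → ℍ → ℂ) (hF : ∀ i ∈ s, Nice (F i)) :
    Nice (∏ i ∈ s, F i) := by
  classical
  induction s using Finset.induction_on with
  | empty => simpa using one
  | insert a s ha ih =>
    rw [Finset.prod_insert ha]
    exact (hF a (Finset.mem_insert_self a s)).mul
      (ih fun i hi ↦ hF i (Finset.mem_insert_of_mem hi))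

theorem qExpansion_eq_zero_iff (hf : Nice f) : qExpansion 1 f = 0 ↔ f = 0 :=
  UpperHalfPlane.qExpansion_eq_zero_iff one_pos hf.1 hf.2.1 hf.2.2

theorem qExpansion_injective (hf : Nice f) (hg : Nice g)
    (h : qExpansion 1 f = qExpansion 1 g) : f = g := by
  have h1 : qExpansion 1 (f - g) = 0 := by
    rw [qExpansion_sub hf.analyticAt hg.analyticAt, h, sub_self]
  exact sub_eq_zero.mp ((hf.sub hg).qExpansion_eq_zero_iff.mp h1)

/-- modular forms for a group with strict period `1` are nice -/
theorem of_modularForm {Γ : Subgroup (GL (Fin 2) ℝ)} {k : ℤ} {F : Type*} [FunLike F ℍ ℂ]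
    [ModularFormClass F Γ k] (hΓ : (1 : ℝ) ∈ Γ.strictPeriods)
    (f : F) : Nice (f : ℍ → ℂ) :=
  have : Fact (IsCusp OnePoint.infty Γ) := ⟨Γ.isCusp_of_mem_strictPeriods one_pos hΓ⟩
  ⟨SlashInvariantFormClass.periodic_comp_ofComplex f hΓ, ModularFormClass.holo f,
    ModularFormClass.bdd_at_infty f⟩

end Nice

/-- The subalgebra of nice functions. -/
def niceSubalgebra : Subalgebra ℂ (ℍ → ℂ) where
  carrier := {f | Nice f}
  mul_mem' hf hg := Nice.mul hf hg
  add_mem' hf hg := Nice.add hf hg
  algebraMap_mem' c := Nice.const c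

theorem mem_niceSubalgebra {f : ℍ → ℂ} : f ∈ niceSubalgebra ↔ Nice f := Iff.rfl

/-- The q-expansion as an algebra homomorphism on nice functions. -/
noncomputable def qExpHom : niceSubalgebra →ₐ[ℂ] PowerSeries ℂ where
  toFun f := qExpansion 1 (f : ℍ → ℂ)
  map_one' := qExpansion_one 1
  map_mul' f g := qExpansion_mul (Nice.analyticAt f.2) (Nice.analyticAt g.2)
  map_zero' := qExpansion_zero 1
  map_add' f g := qExpansion_add (Nice.analyticAt f.2) (Nice.analyticAt g.2)
  commutes' c := by
    have h : ((algebraMap ℂ niceSubalgebra c : niceSubalgebra) : ℍ → ℂ) = c • (1 : ℍ → ℂ) := by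
      ext z; simp [Algebra.algebraMap_eq_smul_one]
    rw [h, qExpansion_smul Nice.one.analyticAt, qExpansion_one]
    ext n
    simp [PowerSeries.coeff_one, PowerSeries.coeff_C]

@[simp] theorem qExpHom_apply (f : niceSubalgebra) : qExpHom f = qExpansion 1 (f : ℍ → ℂ) := rfl

theorem qExpHom_injective : Function.Injective qExpHom := fun f g h ↦
  Subtype.ext (Nice.qExpansion_injective f.2 g.2 h)

end Fermat.Agent.S23
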