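import Mathlib
import Fermat.Agent.S22.Decomp
import Fermat.Agent.S23.Nice

/-!
# S23, module M2: a primitive element `Δ_N = Δ ∣[12] [N, 0; 0, 1]` (`= N¹¹ Δ(N z)`)

* `deltaN N : ModularForm Γ₀(N) 12`;
* its `q`-expansion has rational coefficients;
* for `g ∈ SL(2,ℤ)`: `Δ_N ∣[12] g = Δ_N → g ∈ Γ₀(N)`; hence all non-trivial conjugates of `Δ_N`
  differ from `Δ_N`.
-/

set_option autoImplicit false

noncomputable section

namespace Fermat.Agent.S23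

open Complex Filter Function UpperHalfPlane Matrix.SpecialLinearGroup ModularForm
  CongruenceSubgroup Fermat.Agent.S22 Asymptotics
open scoped Topology Real ModularForm MatrixGroups Pointwise Manifold

local notation "Δ" => ModularForm.discriminant

variable (N : ℕ) [NeZero N]

theorem natCast_pos_int : (0 : ℤ) < (N : ℤ) := by exact_mod_cast Nat.pos_of_neZero N

/-- The matrix `[N, 0; 0, 1]`. -/
def alphaN : GL (Fin 2) ℝ := Sep.upInt (N : ℤ) 0 1 (natCast_pos_int N) one_pos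

theorem val_alphaN :
    ((alphaN N : GL (Fin 2) ℝ) : Matrix (Fin 2) (Fin 2) ℝ) = !![(N : ℝ), 0; 0, 1] := by
  rw [alphaN, Sep.val_upInt]
  simp

/-- `Γ₀(N) ≤ α⁻¹ SL(2,ℤ) α`. -/
theorem gamma0_le_conj :
    (Gamma0 N).map (mapGL ℝ) ≤ ConjAct.toConjAct (alphaN N)⁻¹ • 𝒮ℒ := by
  rintro x ⟨γ, hγ, rfl⟩
  rw [map_inv, Subgroup.mem_inv_pointwise_smul_iff, ConjAct.toConjAct_smul]
  have hγ' : ((γ 1 0 : ℤ) : ZMod N) = 0 := Gamma0_mem.mp hγ
  obtain ⟨c', hc'⟩ : (N : ℤ) ∣ γ 1 0 := (ZMod.intCast_zmod_eq_zero_iff_dvd _ _).mp hγ'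
  have hdet : γ 0 0 * γ 1 1 - γ 0 1 * γ 1 0 = 1 := by
    have h := γ.det_coe
    rwa [Matrix.det_fin_two] at h
  let γ' : SL(2, ℤ) := ⟨!![γ 0 0, N * γ 0 1; c', γ 1 1], by
    rw [Matrix.det_fin_two_of]
    rw [hc'] at hdet
    linear_combination hdet⟩
  refine ⟨γ', ?_⟩
  rw [eq_mul_inv_iff_mul_eq]
  apply Units.ext
  rw [Units.val_mul, Units.val_mul, val_alphaN]
  have hc'' : ((γ 1 0 : ℤ) : ℝ) = (N : ℝ) * (c' : ℝ) := by
    exact_mod_cast congrArg (Int.cast (R := ℝ)) hc'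
  have e1 : ((mapGL ℝ γ : GL (Fin 2) ℝ) : Matrix (Fin 2) (Fin 2) ℝ) =
      !![(γ 0 0 : ℝ), (γ 0 1 : ℝ); (γ 1 0 : ℝ), (γ 1 1 : ℝ)] := by
    ext i j
    fin_cases i <;> fin_cases j <;> simp [Sep.mapGL_apply]
  have e2 : ((mapGL ℝ γ' : GL (Fin 2) ℝ) : Matrix (Fin 2) (Fin 2) ℝ) =
      !![(γ 0 0 : ℝ), (N : ℝ) * (γ 0 1 : ℝ); (c' : ℝ), (γ 1 1 : ℝ)] := by
    ext i j
    fin_cases i <;> fin_cases j <;> rw [Sep.mapGL_apply] <;> simp [γ']
  rw [e1, e2]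
  ext i j
  fin_cases i <;> fin_cases j <;>
    simp [Matrix.mul_apply, Fin.sum_univ_two, hc''] <;> ring

/-- `Δ_N = Δ ∣[12] [N, 0; 0, 1]`, a modular form of weight `12` on `Γ₀(N)`. -/
def deltaN : ModularForm ((Gamma0 N).map (mapGL ℝ)) 12 where
  toFun := (⇑CuspForm.discriminant) ∣[(12 : ℤ)] alphaN N
  slash_action_eq' γ hγ :=
    (ModularForm.translate CuspForm.discriminant (alphaN N)).slash_action_eq' γ
      (gamma0_le_conj N hγ)
  holo' := (ModularForm.translate CuspForm.discriminant (alphaN N)).holo'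
  bdd_at_cusps' hc :=
    (ModularForm.translate CuspForm.discriminant (alphaN N)).bdd_at_cusps'
      (hc.mono (gamma0_le_conj N))

theorem coe_deltaN : (deltaN N : ℍ → ℂ) = (Δ : ℍ → ℂ) ∣[(12 : ℤ)] alphaN N := rfl


/-! ### Decay rates -/

omit [NeZero N] in
theorem im_upInt_smul (a b d : ℤ) (ha : 0 < a) (hd : 0 < d) (τ : ℍ) :
    (Sep.upInt a b d ha hd • τ : ℍ).im = (a : ℝ) / (d : ℝ) * τ.im := by
  have h := Sep.coe_upInt_smul a b d ha hd τ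
  have h2 := congrArg Complex.im h
  rw [UpperHalfPlane.coe_im] at h2
  rw [h2]
  have e : ((a : ℂ) * (τ : ℂ) + (b : ℂ)) / (d : ℂ) =
      (((a : ℝ) / (d : ℝ) : ℝ) : ℂ) * (τ : ℂ) + (((b : ℝ) / (d : ℝ) : ℝ) : ℂ) := by
    have hdC : (d : ℂ) ≠ 0 := by exact_mod_cast hd.ne'
    push_cast
    field_simp
  rw [e]
  simp

omit [NeZero N] in
theorem tendsto_upInt_smul (a b d : ℤ) (ha : 0 < a) (hd : 0 < d) :
    Tendsto (fun τ : ℍ => Sep.upInt a b d ha hd • τ) atImInfty atImInfty := by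
  rw [atImInfty, tendsto_comap_iff]
  have h : (UpperHalfPlane.im ∘ fun τ : ℍ => Sep.upInt a b d ha hd • τ) =
      fun τ : ℍ => (a : ℝ) / (d : ℝ) * τ.im := by
    ext τ
    exact im_upInt_smul a b d ha hd τ
  rw [h]
  have hpos : (0 : ℝ) < (a : ℝ) / (d : ℝ) := by
    have ha' : (0 : ℝ) < a := by exact_mod_cast ha
    have hd' : (0 : ℝ) < d := by exact_mod_cast hd
    positivity
  exact Tendsto.const_mul_atTop hpos tendsto_comap

omit [NeZero N] in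
theorem discriminant_isTheta :
    IsTheta atImInfty (Δ : ℍ → ℂ) (fun τ : ℍ => Real.exp (-2 * π * τ.im)) := by
  refine ⟨?_, exp_isBigO_discriminant⟩
  have h := CuspFormClass.exp_decay_atImInfty (h := 1) CuspForm.discriminant one_pos
    one_mem_strictPeriods_SL
  simpa using h

omit [NeZero N] in
theorem slash_upInt_apply (a b d : ℤ) (ha : 0 < a) (hd : 0 < d) (τ : ℍ) :
    ((Δ : ℍ → ℂ) ∣[(12 : ℤ)] Sep.upInt a b d ha hd) τ =
      (((a : ℂ) * d) ^ (11 : ℕ) * ((d : ℂ) ^ (12 : ℕ))⁻¹) * Δ (Sep.upInt a b d ha hd • τ) := by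
  rw [Sep.slash_apply_of_det_pos 12 _ (Sep.det_upInt_pos a b d ha hd), Sep.denom_upInt,
    Sep.det_upInt]
  have e1 : ((12 : ℤ) - 1) = ((11 : ℕ) : ℤ) := by norm_num
  have e2 : (-(12 : ℤ)) = -((12 : ℕ) : ℤ) := by norm_num
  rw [e1, e2, zpow_natCast, zpow_neg, zpow_natCast]
  push_cast
  ring

omit [NeZero N] in
theorem slash_upInt_isTheta (a b d : ℤ) (ha : 0 < a) (hd : 0 < d) :
    IsTheta atImInfty ((Δ : ℍ → ℂ) ∣[(12 : ℤ)] Sep.upInt a b d ha hd)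
      (fun τ : ℍ => Real.exp (-2 * π * ((a : ℝ) / (d : ℝ)) * τ.im)) := by
  have h3 : ((fun τ : ℍ => Real.exp (-2 * π * τ.im)) ∘ fun τ : ℍ => Sep.upInt a b d ha hd • τ) =
      fun τ : ℍ => Real.exp (-2 * π * ((a : ℝ) / (d : ℝ)) * τ.im) := by
    ext τ
    simp only [Function.comp_apply, im_upInt_smul]
    ring_nf
  have h1 : IsTheta atImInfty (Δ ∘ fun τ : ℍ => Sep.upInt a b d ha hd • τ)
      (fun τ : ℍ => Real.exp (-2 * π * ((a : ℝ) / (d : ℝ)) * τ.im)) := by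
    rw [← h3]
    exact ⟨discriminant_isTheta.1.comp_tendsto (tendsto_upInt_smul a b d ha hd),
      discriminant_isTheta.2.comp_tendsto (tendsto_upInt_smul a b d ha hd)⟩
  have haC : (a : ℂ) ≠ 0 := by exact_mod_cast ha.ne'
  have hdC : (d : ℂ) ≠ 0 := by exact_mod_cast hd.ne'
  have hc : (((a : ℂ) * d) ^ (11 : ℕ) * ((d : ℂ) ^ (12 : ℕ))⁻¹) ≠ 0 := by positivity
  have h2 : ((Δ : ℍ → ℂ) ∣[(12 : ℤ)] Sep.upInt a b d ha hd) =
      fun τ => (((a : ℂ) * d) ^ (11 : ℕ) * ((d : ℂ) ^ (12 : ℕ))⁻¹) *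
        (Δ ∘ fun τ : ℍ => Sep.upInt a b d ha hd • τ) τ := by
    ext τ
    exact slash_upInt_apply a b d ha hd τ
  rw [h2]
  exact (isTheta_const_mul_left hc).mpr h1

omit [NeZero N] in
/-- Two exponential decay rates which are `Θ` of each other are equal. -/
theorem rate_eq_of_isTheta {r₁ r₂ : ℝ}
    (h : IsTheta atImInfty (fun τ : ℍ => Real.exp (-2 * π * r₁ * τ.im))
      (fun τ : ℍ => Real.exp (-2 * π * r₂ * τ.im))) : r₁ = r₂ := by
  have key : ∀ {s₁ s₂ : ℝ}, IsBigO atImInfty (fun τ : ℍ => Real.exp (-2 * π * s₁ * τ.im))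
      (fun τ : ℍ => Real.exp (-2 * π * s₂ * τ.im)) → s₂ ≤ s₁ := by
    intro s₁ s₂ hO
    by_contra hlt
    rw [not_le] at hlt
    obtain ⟨C, hC⟩ := hO.bound
    rw [Filter.Eventually, atImInfty_mem] at hC
    obtain ⟨A, hA⟩ := hC
    -- `exp (2π (s₂ - s₁) y) ≤ C` for all `y ≥ A`, contradiction
    have hpos : 0 < 2 * π * (s₂ - s₁) := by
      have : 0 < s₂ - s₁ := sub_pos.mpr hlt
      positivity
    have htend : Tendsto (fun y : ℝ => Real.exp (2 * π * (s₂ - s₁) * y)) atTop atTop :=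
      Real.tendsto_exp_atTop.comp (Tendsto.const_mul_atTop hpos tendsto_id)
    obtain ⟨y, hy1, hy2, hy3⟩ : ∃ y : ℝ, A ≤ y ∧ 0 < y ∧
        C < Real.exp (2 * π * (s₂ - s₁) * y) := by
      have := (htend.eventually (eventually_gt_atTop C)).and
        ((eventually_ge_atTop A).and (eventually_gt_atTop 0))
      obtain ⟨y, h1, h2, h3⟩ := this.exists
      exact ⟨y, h2, h3, h1⟩
    have hτ := hA (⟨⟨0, y⟩, hy2⟩ : ℍ) (by simpa using hy1)
    simp only [Set.mem_ofPred_eq, Real.norm_eq_abs, Real.abs_exp] at hτ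
    have him : (⟨⟨0, y⟩, hy2⟩ : ℍ).im = y := rfl
    rw [him] at hτ
    have h4 : Real.exp (2 * π * (s₂ - s₁) * y) * Real.exp (-2 * π * s₂ * y) =
        Real.exp (-2 * π * s₁ * y) := by
      rw [← Real.exp_add]
      congr 1
      ring
    have h5 : Real.exp (2 * π * (s₂ - s₁) * y) * Real.exp (-2 * π * s₂ * y) ≤
        C * Real.exp (-2 * π * s₂ * y) := by
      rw [h4]; exact hτ
    have h6 := le_of_mul_le_mul_right h5 (Real.exp_pos _)
    linarith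
  exact le_antisymm (key h.2) (key h.1)

/-! ### The stabiliser of `Δ_N` in `SL(2,ℤ)` is `Γ₀(N)` -/

theorem mem_Gamma0_of_slash_eq (g : SL(2, ℤ))
    (h : (deltaN N : ℍ → ℂ) ∣[(12 : ℤ)] (mapGL ℝ g : GL (Fin 2) ℝ) = deltaN N) :
    g ∈ Gamma0 N := by
  obtain ⟨g', a', b', d', ha', hd', hdec⟩ :=
    Sep.exists_decomp g (N : ℤ) 0 1 (natCast_pos_int N) one_pos
  -- the two sides as slashes of `Δ` by upper triangular matrices
  have hΔ : (Δ : ℍ → ℂ) ∣[(12 : ℤ)] (mapGL ℝ g' : GL (Fin 2) ℝ) = Δ :=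
    SlashInvariantFormClass.slash_action_eq CuspForm.discriminant _ ⟨g', rfl⟩
  have h1 : (deltaN N : ℍ → ℂ) ∣[(12 : ℤ)] (mapGL ℝ g : GL (Fin 2) ℝ) =
      (Δ : ℍ → ℂ) ∣[(12 : ℤ)] Sep.upInt a' b' d' ha' hd' := by
    rw [coe_deltaN, alphaN, ← SlashAction.slash_mul, hdec, SlashAction.slash_mul, hΔ]
  have h2 : (Δ : ℍ → ℂ) ∣[(12 : ℤ)] Sep.upInt a' b' d' ha' hd' =
      (Δ : ℍ → ℂ) ∣[(12 : ℤ)] Sep.upInt (N : ℤ) 0 1 (natCast_pos_int N) one_pos := by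
    rw [← h1, h, coe_deltaN, alphaN]
  have h3 := slash_upInt_isTheta a' b' d' ha' hd'
  rw [h2] at h3
  have h4 := slash_upInt_isTheta (N : ℤ) 0 1 (natCast_pos_int N) one_pos
  have h5 : ((a' : ℝ) / (d' : ℝ)) = (((N : ℤ) : ℝ) / ((1 : ℤ) : ℝ)) :=
    rate_eq_of_isTheta (h3.symm.trans h4)
  -- entries
  have hval := congrArg (fun M : GL (Fin 2) ℝ => (M : Matrix (Fin 2) (Fin 2) ℝ)) hdec
  simp only [Units.val_mul, Sep.val_upInt] at hval
  have e1 : ((mapGL ℝ g : GL (Fin 2) ℝ) : Matrix (Fin 2) (Fin 2) ℝ) =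
      !![(g 0 0 : ℝ), (g 0 1 : ℝ); (g 1 0 : ℝ), (g 1 1 : ℝ)] := by
    ext i j
    fin_cases i <;> fin_cases j <;> simp [Sep.mapGL_apply]
  have e2 : ((mapGL ℝ g' : GL (Fin 2) ℝ) : Matrix (Fin 2) (Fin 2) ℝ) =
      !![(g' 0 0 : ℝ), (g' 0 1 : ℝ); (g' 1 0 : ℝ), (g' 1 1 : ℝ)] := by
    ext i j
    fin_cases i <;> fin_cases j <;> simp [Sep.mapGL_apply]
  rw [e1, e2] at hval
  have h00 := congrFun (congrFun hval 0) 0
  have h01 := congrFun (congrFun hval 0) 1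
  have h10 := congrFun (congrFun hval 1) 0
  have h11 := congrFun (congrFun hval 1) 1
  simp [Matrix.mul_apply, Fin.sum_univ_two] at h00 h01 h10 h11
  have hdet : (g 0 0 : ℝ) * g 1 1 - g 0 1 * g 1 0 = 1 := by
    have h := g.det_coe
    rw [Matrix.det_fin_two] at h
    exact_mod_cast congrArg (Int.cast (R := ℝ)) h
  have hdet' : (g' 0 0 : ℝ) * g' 1 1 - g' 0 1 * g' 1 0 = 1 := by
    have h := g'.det_coe
    rw [Matrix.det_fin_two] at h
    exact_mod_cast congrArg (Int.cast (R := ℝ)) h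
  have hN : (N : ℝ) = a' * d' := by
    have : (N : ℝ) * ((g 0 0 : ℝ) * g 1 1 - g 0 1 * g 1 0) =
        (a' : ℝ) * d' * ((g' 0 0 : ℝ) * g' 1 1 - g' 0 1 * g' 1 0) := by
      linear_combination (g 1 1 : ℝ) * h00 - (g 1 0 : ℝ) * h01
        - (g' 0 0 * (b' : ℝ) + g' 0 1 * d') * h10 + (g' 0 0 * (a' : ℝ)) * h11
    rw [hdet, hdet'] at this
    linarith
  have hd'R : (0 : ℝ) < d' := by exact_mod_cast hd'
  have hNR : (0 : ℝ) < N := by exact_mod_cast Nat.pos_of_neZero N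
  have h6 : (a' : ℝ) = N * d' := by
    have := h5
    simp only [Int.cast_natCast, Int.cast_one, div_one] at this
    rw [div_eq_iff hd'R.ne'] at this
    exact this
  have h7 : (d' : ℝ) = 1 := by
    have h8 : (N : ℝ) * ((d' : ℝ) * d' - 1) = 0 := by
      rw [h6] at hN
      linear_combination -hN
    have h9 : (d' : ℝ) * d' - 1 = 0 := by
      rcases mul_eq_zero.mp h8 with h | h
      · exact absurd h hNR.ne'
      · exact h
    nlinarith
  have h8 : (g 1 0 : ℝ) = g' 1 0 * N := by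
    rw [h10, h6, h7]
    ring
  have h9 : g 1 0 = g' 1 0 * (N : ℤ) := by exact_mod_cast h8
  rw [Gamma0_mem, h9]
  simp

/-- All non-trivial `SL(2,ℤ)`-conjugates of `Δ_N` differ from `Δ_N`. -/
theorem quotientFunc_deltaN_ne (q : 𝒮ℒ ⧸ ((Gamma0 N).map (mapGL ℝ)).subgroupOf 𝒮ℒ)
    (hq : q ≠ ((1 : 𝒮ℒ) : 𝒮ℒ ⧸ ((Gamma0 N).map (mapGL ℝ)).subgroupOf 𝒮ℒ)) :
    SlashInvariantForm.quotientFunc (deltaN N) q ≠ (deltaN N : ℍ → ℂ) := by
  induction q using QuotientGroup.induction_on with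
  | H r =>
    intro heq
    apply hq
    obtain ⟨g, hg⟩ := r.2
    have h1 : SlashInvariantForm.quotientFunc (deltaN N)
        (QuotientGroup.mk r : 𝒮ℒ ⧸ ((Gamma0 N).map (mapGL ℝ)).subgroupOf 𝒮ℒ) =
        (deltaN N : ℍ → ℂ) ∣[(12 : ℤ)] (r : GL (Fin 2) ℝ)⁻¹ :=
      SlashInvariantForm.quotientFunc_mk (deltaN N) r
    rw [h1, ← hg, ← map_inv] at heq
    have h2 : g⁻¹ ∈ Gamma0 N := mem_Gamma0_of_slash_eq N g⁻¹ heq
    rw [QuotientGroup.eq, Subgroup.mem_subgroupOf]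
    refine ⟨g⁻¹, h2, ?_⟩
    simp [← hg]

/-! ### Rationality of the `q`-expansion -/

/-- Power series with rational coefficients. -/
def ratSeries : Subring (PowerSeries ℂ) := (PowerSeries.map (algebraMap ℚ ℂ)).range

omit [NeZero N] in
theorem mem_ratSeries_iff {p : PowerSeries ℂ} :
    p ∈ ratSeries ↔ ∀ n, ∃ r : ℚ, p.coeff n = (r : ℂ) := by
  constructor
  · rintro ⟨p₀, rfl⟩ n
    exact ⟨p₀.coeff n, by simp⟩
  · intro h
    choose r hr using h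
    refine ⟨PowerSeries.mk r, ?_⟩
    ext n
    simp [hr n]

omit [NeZero N] in
theorem qExpansion_E_mem_ratSeries {k : ℕ} (hk : 3 ≤ k) (hk2 : Even k) :
    qExpansion 1 (ModularForm.E hk) ∈ ratSeries := by
  rw [mem_ratSeries_iff]
  intro n
  rw [EisensteinSeries.E_qExpansion_coeff hk hk2 n]
  split_ifs with h
  · exact ⟨1, by simp⟩
  · refine ⟨-(2 * k / bernoulli k) * (ArithmeticFunction.sigma (k - 1) n : ℚ), ?_⟩
    push_cast
    ring

omit [NeZero N] in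
theorem smul_mem_ratSeries (r : ℚ) {p : PowerSeries ℂ} (hp : p ∈ ratSeries) :
    ((r : ℂ) • p) ∈ ratSeries := by
  rw [mem_ratSeries_iff] at hp ⊢
  intro n
  obtain ⟨s, hs⟩ := hp n
  exact ⟨r * s, by simp [hs]⟩

omit [NeZero N] in
theorem qExpansion_discriminant_mem_ratSeries : qExpansion 1 (Δ : ℍ → ℂ) ∈ ratSeries := by
  have hE4 : Nice (E₄ : ℍ → ℂ) := Nice.of_modularForm one_mem_strictPeriods_SL E₄
  have hE6 : Nice (E₆ : ℍ → ℂ) := Nice.of_modularForm one_mem_strictPeriods_SL E₆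
  have hfun : (Δ : ℍ → ℂ) = ((1 / 1728 : ℚ) : ℂ) • ((E₄ : ℍ → ℂ) ^ 3 - (E₆ : ℍ → ℂ) ^ 2) := by
    ext z
    rw [discriminant_eq_E₄_cube_sub_E₆_sq z]
    simp only [Pi.smul_apply, Pi.sub_apply, Pi.pow_apply, smul_eq_mul]
    push_cast
    ring
  have h3 : qExpansion 1 ((E₄ : ℍ → ℂ) ^ 3) = qExpansion 1 (E₄ : ℍ → ℂ) ^ 3 := by
    have := map_pow qExpHom (⟨(E₄ : ℍ → ℂ), hE4⟩ : niceSubalgebra) 3
    simpa using this
  have h2 : qExpansion 1 ((E₆ : ℍ → ℂ) ^ 2) = qExpansion 1 (E₆ : ℍ → ℂ) ^ 2 := by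
    have := map_pow qExpHom (⟨(E₆ : ℍ → ℂ), hE6⟩ : niceSubalgebra) 2
    simpa using this
  rw [hfun, qExpansion_smul ((hE4.pow 3).sub (hE6.pow 2)).analyticAt,
    qExpansion_sub (hE4.pow 3).analyticAt (hE6.pow 2).analyticAt, h3, h2]
  refine smul_mem_ratSeries _ (ratSeries.sub_mem (ratSeries.pow_mem ?_ 3) (ratSeries.pow_mem ?_ 2))
  · exact qExpansion_E_mem_ratSeries (by norm_num) ⟨2, rfl⟩
  · exact qExpansion_E_mem_ratSeries (by norm_num) ⟨3, rfl⟩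

omit [NeZero N] in
theorem one_mem_strictPeriods_Gamma0 :
    (1 : ℝ) ∈ ((Gamma0 N).map (mapGL ℝ)).strictPeriods := by
  have h : (1 : ℝ) ∈ (Gamma0 N : Subgroup (GL (Fin 2) ℝ)).strictPeriods := by
    simp [CongruenceSubgroup.strictPeriods_Gamma0]
  exact h

theorem deltaN_apply (τ : ℍ) :
    deltaN N τ = (N : ℂ) ^ 11 * Δ (alphaN N • τ) := by
  have h := slash_upInt_apply (N : ℤ) 0 1 (natCast_pos_int N) one_pos τ
  have h' : deltaN N τ = ((Δ : ℍ → ℂ) ∣[(12 : ℤ)]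
      Sep.upInt (N : ℤ) 0 1 (natCast_pos_int N) one_pos) τ := rfl
  rw [h', h, alphaN]
  simp

theorem qParam_alphaN_smul (τ : ℍ) :
    Periodic.qParam 1 ((alphaN N • τ : ℍ) : ℂ) = Periodic.qParam 1 (τ : ℂ) ^ N := by
  rw [alphaN, Sep.coe_upInt_smul]
  simp only [Periodic.qParam, ← Complex.exp_nat_mul]
  congr 1
  push_cast
  ring

/-- The `q`-expansion of `Δ_N`. -/
theorem qExpansion_deltaN_coeff (n : ℕ) :
    (qExpansion 1 (deltaN N)).coeff n =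
      if N ∣ n then (N : ℂ) ^ 11 * (qExpansion 1 (Δ : ℍ → ℂ)).coeff (n / N) else 0 := by
  have hN : 0 < N := Nat.pos_of_neZero N
  set c : ℕ → ℂ := fun n =>
    if N ∣ n then (N : ℂ) ^ 11 * (qExpansion 1 (Δ : ℍ → ℂ)).coeff (n / N) else 0 with hc
  suffices h : ∀ τ : ℍ, HasSum (fun m ↦ c m • Periodic.qParam 1 τ ^ m) (deltaN N τ) from
    (ModularFormClass.qExpansion_coeff_unique one_pos (one_mem_strictPeriods_Gamma0 N) h n).symm
  intro τ
  have hΔ : Nice (Δ : ℍ → ℂ) :=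
    Nice.of_modularForm one_mem_strictPeriods_SL CuspForm.discriminant
  have h1 := UpperHalfPlane.hasSum_qExpansion one_pos hΔ.1 hΔ.2.1 hΔ.2.2 (alphaN N • τ)
  rw [qParam_alphaN_smul] at h1
  have h2 := h1.mul_left ((N : ℂ) ^ 11)
  rw [deltaN_apply]
  have hinj : Function.Injective (fun j : ℕ => N * j) :=
    fun a b hab => Nat.eq_of_mul_eq_mul_left hN hab
  rw [← hinj.hasSum_iff]
  · have e : ((fun m => c m • Periodic.qParam 1 (τ : ℂ) ^ m) ∘ fun j => N * j) =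
        fun i => (N : ℂ) ^ 11 * (qExpansion 1 (Δ : ℍ → ℂ)).coeff i •
          (Periodic.qParam 1 (τ : ℂ) ^ N) ^ i := by
      funext j
      have hdiv : N * j / N = j := Nat.mul_div_cancel_left _ hN
      simp only [Function.comp_apply, hc, dvd_mul_right, if_true, smul_eq_mul, hdiv]
      rw [pow_mul]
      ring
    rw [e]
    exact h2
  · intro m hm
    have : ¬ N ∣ m := by
      rintro ⟨j, rfl⟩
      exact hm ⟨j, rfl⟩
    simp [hc, this]

theorem qExpansion_deltaN_mem_ratSeries : qExpansion 1 (deltaN N) ∈ ratSeries := by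
  rw [mem_ratSeries_iff]
  intro n
  rw [qExpansion_deltaN_coeff]
  split_ifs with h
  · obtain ⟨r, hr⟩ := (mem_ratSeries_iff.mp qExpansion_discriminant_mem_ratSeries) (n / N)
    exact ⟨(N : ℚ) ^ 11 * r, by rw [hr]; push_cast; ring⟩
  · exact ⟨0, by simp⟩

/-- **M2**: a primitive element with rational `q`-expansion. -/
theorem exists_primitive :
    ∃ (w : ℤ) (h : ModularForm ((Gamma0 N).map (mapGL ℝ)) w),
      (∀ n, ∃ r : ℚ, (qExpansion 1 h).coeff n = (r : ℂ)) ∧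
      ∀ q : 𝒮ℒ ⧸ ((Gamma0 N).map (mapGL ℝ)).subgroupOf 𝒮ℒ,
        q ≠ ((1 : 𝒮ℒ) : 𝒮ℒ ⧸ ((Gamma0 N).map (mapGL ℝ)).subgroupOf 𝒮ℒ) →
        SlashInvariantForm.quotientFunc h q ≠ (h : ℍ → ℂ) :=
  ⟨12, deltaN N, mem_ratSeries_iff.mp (qExpansion_deltaN_mem_ratSeries N),
    quotientFunc_deltaN_ne N⟩

end Fermat.Agent.S23
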