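import Mathlib

/-!
# Vieta and Lagrange interpolation identities for a finite family

For a finite family `(x_q, y_q)` in a commutative ring, with `e_i = esymm_i(x)` and
`p_j = ∑_q y_q x_q^j`:
* `vieta_root`: `∑_i (-1)^i e_i x_{q₀}^{μ-i} = 0`;
* `lagrange`: `y_{q₀} ∏_{q ≠ q₀} (x_{q₀} - x_q) = ∑_{n<μ} (∑_{i=n+1}^{μ} (-1)^{μ-i} e_{μ-i} p_{i-n-1}) x_{q₀}^n`.
-/

open Polynomial Finset

namespace Fermat.Agent.S23.Alg

variable {A : Type*} [CommRing A] {ι : Type*} [Fintype ι]

/-- elementary symmetric functions of a finite family -/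
noncomputable def es (x : ι → A) (i : ℕ) : A := (univ.val.map x).esymm i

/-- mixed power sums `∑_q y_q x_q^j` -/
def ps (x y : ι → A) (j : ℕ) : A := ∑ q, y q * x q ^ j

theorem es_zero (x : ι → A) : es x 0 = 1 := by
  simp [es, Multiset.esymm]

/-- the characteristic polynomial of the family -/
noncomputable def charPoly (x : ι → A) : A[X] := ∏ q, (X - C (x q))

theorem charPoly_eq (x : ι → A) :
    charPoly x = ((univ.val.map x).map fun t => X - C t).prod := by
  rw [charPoly, Finset.prod, Multiset.map_map]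
  rfl

theorem charPoly_eq_sum (x : ι → A) :
    charPoly x = ∑ j ∈ range (Fintype.card ι + 1),
      (-1) ^ j * (C (es x j) * X ^ (Fintype.card ι - j)) := by
  rw [charPoly_eq, Multiset.prod_X_sub_X_eq_sum_esymm]
  simp [es]

theorem charPoly_coeff (x : ι → A) {i : ℕ} (hi : i ≤ Fintype.card ι) :
    (charPoly x).coeff i = (-1) ^ (Fintype.card ι - i) * es x (Fintype.card ι - i) := by
  rw [charPoly_eq, Multiset.prod_X_sub_C_coeff]
  · simp [es]
  · simpa using hi

theorem charPoly_eval_self (x : ι → A) (q₀ : ι) : (charPoly x).eval (x q₀) = 0 := by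
  rw [charPoly, eval_prod]
  exact Finset.prod_eq_zero (mem_univ q₀) (by simp)

/-- **Vieta at a root.** -/
theorem vieta_root (x : ι → A) (q₀ : ι) :
    ∑ i ∈ range (Fintype.card ι + 1),
      (-1) ^ i * es x i * x q₀ ^ (Fintype.card ι - i) = 0 := by
  have h := charPoly_eval_self x q₀
  rw [charPoly_eq_sum, eval_finsetSum] at h
  simpa [mul_assoc] using h

theorem charPoly_natDegree [Nontrivial A] (x : ι → A) : (charPoly x).natDegree = Fintype.card ι := by
  rw [charPoly_eq, natDegree_multiset_prod_X_sub_C_eq_card]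
  simp

variable [DecidableEq ι]

theorem charPoly_divByMonic (x : ι → A) (q : ι) :
    charPoly x /ₘ (X - C (x q)) = ∏ q' ∈ univ.erase q, (X - C (x q')) := by
  rw [charPoly, ← Finset.mul_prod_erase univ _ (mem_univ q)]
  exact mul_divByMonic_cancel_left _ (monic_X_sub_C _)

/-- The interpolation polynomial `∑_q y_q ∏_{q' ≠ q} (X - x_q')`. -/
noncomputable def interp (x y : ι → A) : A[X] :=
  ∑ q, C (y q) * ∏ q' ∈ univ.erase q, (X - C (x q'))

theorem interp_eval (x y : ι → A) (q₀ : ι) :
    (interp x y).eval (x q₀) = y q₀ * ∏ q ∈ univ.erase q₀, (x q₀ - x q) := by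
  rw [interp, eval_finsetSum, Finset.sum_eq_single q₀]
  · simp [eval_prod]
  · intro q _ hq
    rw [eval_mul, eval_prod]
    rw [Finset.prod_eq_zero (i := q₀) (mem_erase.mpr ⟨fun h => hq h.symm, mem_univ _⟩) (by simp)]
    simp
  · intro h
    exact absurd (mem_univ q₀) h

theorem interp_coeff [Nontrivial A] (x y : ι → A) (n : ℕ) :
    (interp x y).coeff n = ∑ i ∈ Icc (n + 1) (Fintype.card ι),
      (-1) ^ (Fintype.card ι - i) * es x (Fintype.card ι - i) * ps x y (i - (n + 1)) := by
  rw [interp, finsetSum_coeff]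
  simp_rw [coeff_C_mul, ← charPoly_divByMonic, coeff_divByMonic_X_sub_C, charPoly_natDegree]
  simp only [ps, Finset.mul_sum]
  rw [Finset.sum_comm]
  refine Finset.sum_congr rfl fun i hi => ?_
  refine Finset.sum_congr rfl fun q _ => ?_
  rw [charPoly_coeff x (mem_Icc.mp hi).2]
  ring

theorem interp_natDegree_lt (x y : ι → A) (hι : 0 < Fintype.card ι) :
    (interp x y).natDegree < Fintype.card ι := by
  refine lt_of_le_of_lt (natDegree_sum_le_of_forall_le _ _ (n := Fintype.card ι - 1) ?_) (by omega)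
  intro q _
  refine (natDegree_C_mul_le _ _).trans ?_
  refine (natDegree_prod_le _ _).trans ?_
  refine (Finset.sum_le_sum (fun q' _ => natDegree_X_sub_C_le (x q'))).trans ?_
  simp [card_erase_of_mem]

/-- **Lagrange interpolation identity.** -/
theorem lagrange [Nontrivial A] (x y : ι → A) (q₀ : ι) :
    y q₀ * ∏ q ∈ univ.erase q₀, (x q₀ - x q) =
      ∑ n ∈ range (Fintype.card ι),
        (∑ i ∈ Icc (n + 1) (Fintype.card ι),
          (-1) ^ (Fintype.card ι - i) * es x (Fintype.card ι - i) * ps x y (i - (n + 1))) *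
          x q₀ ^ n := by
  have hι : 0 < Fintype.card ι := Fintype.card_pos_iff.mpr ⟨q₀⟩
  rw [← interp_eval, eval_eq_sum_range' (interp_natDegree_lt x y hι)]
  refine Finset.sum_congr rfl fun n _ => ?_
  rw [interp_coeff]

end Fermat.Agent.S23.Alg
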