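import Mathlib
import Fermat.Agent.S23.Alg

/-!
# The polynomial expressions `W`, `U`, `M` over an arbitrary commutative ring

* `Wexpr μ E h = ∑_{n<μ} (∑_{i=n+1}^{μ} (-1)^{μ-i} E_{μ-i} h^{i-n-1}) h^n`   (the "different" `P'(h)`)
* `Uexpr μ E P h = ∑_{n<μ} (∑_{i=n+1}^{μ} (-1)^{μ-i} E_{μ-i} P_{i-n-1}) h^n` (Lagrange numerator)
* `Mexpr μ ε f = ∑_{i≤μ} (-1)^i ε_i f^{μ-i}`                                  (monic equation)
* `Hexpr μ ε U W = ∑_{i≤μ} (-1)^i ε_i U^{μ-i} W^i`                            (homogenised)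
They commute with ring homomorphisms.
-/

open Finset

namespace Fermat.Agent.S23

variable {R S : Type*} [CommRing R] [CommRing S]

/-- `∑_{n<μ} (∑_{i=n+1}^{μ} (-1)^{μ-i} E_{μ-i} h^{i-n-1}) h^n` -/
def Wexpr (μ : ℕ) (E : ℕ → R) (h : R) : R :=
  ∑ n ∈ range μ, (∑ i ∈ Icc (n + 1) μ, (-1) ^ (μ - i) * E (μ - i) * h ^ (i - (n + 1))) * h ^ n

/-- `∑_{n<μ} (∑_{i=n+1}^{μ} (-1)^{μ-i} E_{μ-i} P_{i-n-1}) h^n` -/
def Uexpr (μ : ℕ) (E P : ℕ → R) (h : R) : R :=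
  ∑ n ∈ range μ, (∑ i ∈ Icc (n + 1) μ, (-1) ^ (μ - i) * E (μ - i) * P (i - (n + 1))) * h ^ n

/-- `∑_{i≤μ} (-1)^i ε_i f^{μ-i}` -/
def Mexpr (μ : ℕ) (ε : ℕ → R) (f : R) : R :=
  ∑ i ∈ range (μ + 1), (-1) ^ i * ε i * f ^ (μ - i)

/-- `∑_{i≤μ} (-1)^i ε_i U^{μ-i} W^i` -/
def Hexpr (μ : ℕ) (ε : ℕ → R) (U W : R) : R :=
  ∑ i ∈ range (μ + 1), (-1) ^ i * ε i * U ^ (μ - i) * W ^ i

theorem map_Wexpr (φ : R →+* S) (μ : ℕ) (E : ℕ → R) (h : R) :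
    φ (Wexpr μ E h) = Wexpr μ (fun i ↦ φ (E i)) (φ h) := by
  simp [Wexpr, map_sum, map_mul, map_pow]

theorem map_Uexpr (φ : R →+* S) (μ : ℕ) (E P : ℕ → R) (h : R) :
    φ (Uexpr μ E P h) = Uexpr μ (fun i ↦ φ (E i)) (fun i ↦ φ (P i)) (φ h) := by
  simp [Uexpr, map_sum, map_mul, map_pow]

theorem map_Mexpr (φ : R →+* S) (μ : ℕ) (ε : ℕ → R) (f : R) :
    φ (Mexpr μ ε f) = Mexpr μ (fun i ↦ φ (ε i)) (φ f) := by
  simp [Mexpr, map_sum, map_mul, map_pow]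

theorem map_Hexpr (φ : R →+* S) (μ : ℕ) (ε : ℕ → R) (U W : R) :
    φ (Hexpr μ ε U W) = Hexpr μ (fun i ↦ φ (ε i)) (φ U) (φ W) := by
  simp [Hexpr, map_sum, map_mul, map_pow]

/-- if `U = f W` then `H(U, W) = W^μ M(f)` -/
theorem Hexpr_eq (μ : ℕ) (ε : ℕ → R) (f W : R) :
    Hexpr μ ε (f * W) W = W ^ μ * Mexpr μ ε f := by
  rw [Hexpr, Mexpr, Finset.mul_sum]
  refine Finset.sum_congr rfl fun i hi ↦ ?_
  have hi' : i ≤ μ := Nat.lt_succ_iff.mp (mem_range.mp hi)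
  have : W ^ μ = W ^ (μ - i) * W ^ i := by rw [← pow_add, Nat.sub_add_cancel hi']
  rw [this, mul_pow]
  ring

/-- pointwise evaluation for function rings -/
theorem Wexpr_apply {X : Type*} (μ : ℕ) (E : ℕ → X → R) (h : X → R) (z : X) :
    Wexpr μ E h z = Wexpr μ (fun i ↦ E i z) (h z) :=
  map_Wexpr (Pi.evalRingHom (fun _ ↦ R) z) μ E h

theorem Uexpr_apply {X : Type*} (μ : ℕ) (E P : ℕ → X → R) (h : X → R) (z : X) :
    Uexpr μ E P h z = Uexpr μ (fun i ↦ E i z) (fun i ↦ P i z) (h z) :=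
  map_Uexpr (Pi.evalRingHom (fun _ ↦ R) z) μ E P h

theorem Mexpr_apply {X : Type*} (μ : ℕ) (ε : ℕ → X → R) (f : X → R) (z : X) :
    Mexpr μ ε f z = Mexpr μ (fun i ↦ ε i z) (f z) :=
  map_Mexpr (Pi.evalRingHom (fun _ ↦ R) z) μ ε f

theorem Hexpr_apply {X : Type*} (μ : ℕ) (ε : ℕ → X → R) (U W : X → R) (z : X) :
    Hexpr μ ε U W z = Hexpr μ (fun i ↦ ε i z) (U z) (W z) :=
  map_Hexpr (Pi.evalRingHom (fun _ ↦ R) z) μ ε U W

section family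

variable {ι : Type*} [Fintype ι] [DecidableEq ι] [Nontrivial R]

/-- Vieta in terms of `Mexpr`. -/
theorem Mexpr_es (x : ι → R) (q₀ : ι) :
    Mexpr (Fintype.card ι) (Alg.es x) (x q₀) = 0 :=
  Alg.vieta_root x q₀

/-- Lagrange in terms of `Uexpr`. -/
theorem Uexpr_es (x y : ι → R) (q₀ : ι) :
    y q₀ * ∏ q ∈ univ.erase q₀, (x q₀ - x q) =
      Uexpr (Fintype.card ι) (Alg.es x) (Alg.ps x y) (x q₀) :=
  Alg.lagrange x y q₀

/-- The different in terms of `Wexpr`. -/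
theorem Wexpr_es (x : ι → R) (q₀ : ι) :
    ∏ q ∈ univ.erase q₀, (x q₀ - x q) = Wexpr (Fintype.card ι) (Alg.es x) (x q₀) := by
  have h := Alg.lagrange x (Pi.single q₀ 1) q₀
  have hps : ∀ j, Alg.ps x (Pi.single q₀ (1 : R)) j = x q₀ ^ j := by
    intro j
    rw [Alg.ps, Finset.sum_eq_single q₀]
    · simp
    · intro q _ hq
      simp [Pi.single_eq_of_ne hq]
    · intro hq
      exact absurd (mem_univ q₀) hq
  simp only [hps, Pi.single_eq_same, one_mul] at h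
  exact h

end family

end Fermat.Agent.S23
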