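import Mathlib
import Fermat.Agent.S23.Nice
import Fermat.Agent.S23.Expr

/-!
# q-expansions of the polynomial expressions in nice functions, value at `i∞`
-/

open UpperHalfPlane ModularFormClass Filter Function
open scoped MatrixGroups ModularForm Manifold Topology

namespace Fermat.Agent.S23

namespace Nice

variable {f : ℍ → ℂ}

theorem tendsto_valueAtInfty (hf : Nice f) : Tendsto f atImInfty (𝓝 (valueAtInfty f)) := by
  have hanal := hf.analyticAt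
  rw [← cuspFunction_apply_zero one_pos hanal hf.1]
  exact (hanal.continuousAt.tendsto.comp (qParam_tendsto_atImInfty one_pos)).congr
    (fun τ ↦ (eq_cuspFunction τ one_ne_zero hf.1))

theorem coeff_zero (hf : Nice f) : (qExpansion 1 f).coeff 0 = valueAtInfty f :=
  qExpansion_coeff_zero one_pos hf.analyticAt hf.1

theorem isZeroAtImInfty_iff (hf : Nice f) :
    IsZeroAtImInfty f ↔ (qExpansion 1 f).coeff 0 = 0 := by
  rw [hf.coeff_zero]
  constructor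
  · intro h
    exact h.valueAtInfty_eq_zero
  · intro h
    have := hf.tendsto_valueAtInfty
    rwa [h] at this

end Nice

section exprs

variable (μ : ℕ) {E P ε : ℕ → ℍ → ℂ} {h f U W : ℍ → ℂ}

theorem nice_Wexpr_aux (hE : ∀ i, Nice (E i)) (hh : Nice h) :
    ((Wexpr μ (fun i ↦ (⟨E i, hE i⟩ : niceSubalgebra)) ⟨h, hh⟩ : niceSubalgebra) : ℍ → ℂ) =
      Wexpr μ E h :=
  map_Wexpr (niceSubalgebra.val : niceSubalgebra →+* (ℍ → ℂ)) μ _ _

theorem nice_Wexpr (hE : ∀ i, Nice (E i)) (hh : Nice h) : Nice (Wexpr μ E h) := by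
  rw [← nice_Wexpr_aux μ hE hh]
  exact Subtype.property _

theorem qExpansion_Wexpr (hE : ∀ i, Nice (E i)) (hh : Nice h) :
    qExpansion 1 (Wexpr μ E h) = Wexpr μ (fun i ↦ qExpansion 1 (E i)) (qExpansion 1 h) := by
  rw [← nice_Wexpr_aux μ hE hh, ← qExpHom_apply]
  exact map_Wexpr (qExpHom : niceSubalgebra →+* PowerSeries ℂ) μ _ _

theorem nice_Uexpr_aux (hE : ∀ i, Nice (E i)) (hP : ∀ i, Nice (P i)) (hh : Nice h) :
    ((Uexpr μ (fun i ↦ (⟨E i, hE i⟩ : niceSubalgebra)) (fun i ↦ (⟨P i, hP i⟩ : niceSubalgebra))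
      ⟨h, hh⟩ : niceSubalgebra) : ℍ → ℂ) = Uexpr μ E P h :=
  map_Uexpr (niceSubalgebra.val : niceSubalgebra →+* (ℍ → ℂ)) μ _ _ _

theorem nice_Uexpr (hE : ∀ i, Nice (E i)) (hP : ∀ i, Nice (P i)) (hh : Nice h) :
    Nice (Uexpr μ E P h) := by
  rw [← nice_Uexpr_aux μ hE hP hh]
  exact Subtype.property _

theorem qExpansion_Uexpr (hE : ∀ i, Nice (E i)) (hP : ∀ i, Nice (P i)) (hh : Nice h) :
    qExpansion 1 (Uexpr μ E P h) =
      Uexpr μ (fun i ↦ qExpansion 1 (E i)) (fun i ↦ qExpansion 1 (P i)) (qExpansion 1 h) := by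
  rw [← nice_Uexpr_aux μ hE hP hh, ← qExpHom_apply]
  exact map_Uexpr (qExpHom : niceSubalgebra →+* PowerSeries ℂ) μ _ _ _

theorem nice_Mexpr_aux (hε : ∀ i, Nice (ε i)) (hf : Nice f) :
    ((Mexpr μ (fun i ↦ (⟨ε i, hε i⟩ : niceSubalgebra)) ⟨f, hf⟩ : niceSubalgebra) : ℍ → ℂ) =
      Mexpr μ ε f :=
  map_Mexpr (niceSubalgebra.val : niceSubalgebra →+* (ℍ → ℂ)) μ _ _

theorem nice_Mexpr (hε : ∀ i, Nice (ε i)) (hf : Nice f) : Nice (Mexpr μ ε f) := by
  rw [← nice_Mexpr_aux μ hε hf]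
  exact Subtype.property _

theorem qExpansion_Mexpr (hε : ∀ i, Nice (ε i)) (hf : Nice f) :
    qExpansion 1 (Mexpr μ ε f) = Mexpr μ (fun i ↦ qExpansion 1 (ε i)) (qExpansion 1 f) := by
  rw [← nice_Mexpr_aux μ hε hf, ← qExpHom_apply]
  exact map_Mexpr (qExpHom : niceSubalgebra →+* PowerSeries ℂ) μ _ _

theorem nice_Hexpr_aux (hε : ∀ i, Nice (ε i)) (hU : Nice U) (hW : Nice W) :
    ((Hexpr μ (fun i ↦ (⟨ε i, hε i⟩ : niceSubalgebra)) ⟨U, hU⟩ ⟨W, hW⟩ : niceSubalgebra) :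
      ℍ → ℂ) = Hexpr μ ε U W :=
  map_Hexpr (niceSubalgebra.val : niceSubalgebra →+* (ℍ → ℂ)) μ _ _ _

theorem nice_Hexpr (hε : ∀ i, Nice (ε i)) (hU : Nice U) (hW : Nice W) :
    Nice (Hexpr μ ε U W) := by
  rw [← nice_Hexpr_aux μ hε hU hW]
  exact Subtype.property _

theorem qExpansion_Hexpr (hε : ∀ i, Nice (ε i)) (hU : Nice U) (hW : Nice W) :
    qExpansion 1 (Hexpr μ ε U W) =
      Hexpr μ (fun i ↦ qExpansion 1 (ε i)) (qExpansion 1 U) (qExpansion 1 W) := by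
  rw [← nice_Hexpr_aux μ hε hU hW, ← qExpHom_apply]
  exact map_Hexpr (qExpHom : niceSubalgebra →+* PowerSeries ℂ) μ _ _ _

theorem qExpansion_mul_nice {f g : ℍ → ℂ} (hf : Nice f) (hg : Nice g) :
    qExpansion 1 (f * g) = qExpansion 1 f * qExpansion 1 g :=
  qExpansion_mul hf.analyticAt hg.analyticAt

end exprs

end Fermat.Agent.S23
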