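import Mathlib
import Fermat.Agent.S23.Nice
import Fermat.Agent.S23.Alg

/-!
# Conjugates of a modular form on `Γ₀(N)` over `SL₂(ℤ)`; traces and symmetric functions

For `f ∈ M_k(Γ₀(N))` the conjugates `f_q` (`q ∈ SL₂(ℤ)/Γ₀(N)`) are Mathlib's
`SlashInvariantForm.quotientFunc`. Power sums are level-one forms by Mathlib's trace; elementary
symmetric functions are level-one forms by Newton's identities.
-/

open UpperHalfPlane ModularFormClass CongruenceSubgroup Matrix.SpecialLinearGroup Finset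
open scoped MatrixGroups ModularForm Manifold

namespace Fermat.Agent.S23

/-- `f` is (the underlying function of) a modular form of weight `k` on `Γ`. -/
def IsMFn (Γ : Subgroup (GL (Fin 2) ℝ)) (k : ℤ) (f : ℍ → ℂ) : Prop :=
  ∃ F : ModularForm Γ k, (F : ℍ → ℂ) = f

namespace IsMFn

variable {Γ : Subgroup (GL (Fin 2) ℝ)} {k k₁ k₂ : ℤ} {f g : ℍ → ℂ}

theorem of_eq (h : k₁ = k₂) (hf : IsMFn Γ k₁ f) : IsMFn Γ k₂ f := h ▸ hf

theorem coe (F : ModularForm Γ k) : IsMFn Γ k F := ⟨F, rfl⟩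

theorem add (hf : IsMFn Γ k f) (hg : IsMFn Γ k g) : IsMFn Γ k (f + g) := by
  obtain ⟨F, rfl⟩ := hf
  obtain ⟨G, rfl⟩ := hg
  exact ⟨F + G, rfl⟩

theorem zero : IsMFn Γ k (0 : ℍ → ℂ) := ⟨0, rfl⟩

theorem sum {ι : Type*} (s : Finset ι) (F : ι → ℍ → ℂ) (hF : ∀ i ∈ s, IsMFn Γ k (F i)) :
    IsMFn Γ k (∑ i ∈ s, F i) := by
  classical
  induction s using Finset.induction_on with
  | empty => simpa using zero
  | insert a s ha ih =>
    rw [Finset.sum_insert ha]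
    exact (hF a (Finset.mem_insert_self a s)).add
      (ih fun i hi ↦ hF i (Finset.mem_insert_of_mem hi))

variable [Γ.HasDetOne]

theorem smul (c : ℂ) (hf : IsMFn Γ k f) : IsMFn Γ k (c • f) := by
  obtain ⟨F, rfl⟩ := hf
  exact ⟨c • F, rfl⟩

theorem neg (hf : IsMFn Γ k f) : IsMFn Γ k (-f) := by
  obtain ⟨F, rfl⟩ := hf
  exact ⟨-F, rfl⟩

theorem mul (hf : IsMFn Γ k₁ f) (hg : IsMFn Γ k₂ g) : IsMFn Γ (k₁ + k₂) (f * g) := by
  obtain ⟨F, rfl⟩ := hf
  obtain ⟨G, rfl⟩ := hg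
  exact ⟨F.mul G, rfl⟩

theorem one : IsMFn Γ 0 (1 : ℍ → ℂ) := ⟨1, rfl⟩

theorem pow (hf : IsMFn Γ k f) (n : ℕ) : IsMFn Γ (n * k) (f ^ n) := by
  obtain ⟨F, rfl⟩ := hf
  exact ⟨F.pow n, ModularForm.coe_pow F n⟩

theorem nice (hΓ : (1 : ℝ) ∈ Γ.strictPeriods) (hf : IsMFn Γ k f) : Nice f := by
  obtain ⟨F, rfl⟩ := hf
  exact Nice.of_modularForm hΓ F

theorem mdiff (hf : IsMFn Γ k f) : MDiff f := by
  obtain ⟨F, rfl⟩ := hf
  exact ModularFormClass.holo F

theorem slash_eq (hf : IsMFn Γ k f) {γ : GL (Fin 2) ℝ} (hγ : γ ∈ Γ) : f ∣[k] γ = f := by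
  obtain ⟨F, rfl⟩ := hf
  exact SlashInvariantFormClass.slash_action_eq F γ hγ

end IsMFn

/-- `Γ₀(N)` as a subgroup of `GL₂(ℝ)`. -/
abbrev Γ0 (N : ℕ) : Subgroup (GL (Fin 2) ℝ) := (Gamma0 N).map (mapGL ℝ)

/-- The index set `SL₂(ℤ)/Γ₀(N)` of the conjugates. -/
abbrev Q (N : ℕ) : Type := 𝒮ℒ ⧸ (Γ0 N).subgroupOf 𝒮ℒ

variable {N : ℕ} [NeZero N]

noncomputable instance instFintypeQ : Fintype (Q N) := Fintype.ofFinite _

noncomputable instance instDecidableEqQ : DecidableEq (Q N) := Classical.decEq _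

/-- the trivial coset -/
def q₀ (N : ℕ) : Q N := ((1 : 𝒮ℒ) : Q N)

theorem one_mem_strictPeriods_Γ0 (N : ℕ) : (1 : ℝ) ∈ (Γ0 N).strictPeriods := by
  simp

theorem Γ0_le_SL (N : ℕ) : Γ0 N ≤ 𝒮ℒ := by
  rintro _ ⟨γ, -, rfl⟩
  exact ⟨γ, rfl⟩

/-- level-one forms are forms on `Γ₀(N)` -/
theorem IsMFn.of_levelOne {k : ℤ} {f : ℍ → ℂ} (hf : IsMFn 𝒮ℒ k f) : IsMFn (Γ0 N) k f := by
  obtain ⟨F, rfl⟩ := hf
  exact ⟨{ toFun := F
           slash_action_eq' := fun γ hγ ↦ F.slash_action_eq' γ (Γ0_le_SL N hγ)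
           holo' := F.holo'
           bdd_at_cusps' := fun hc ↦ F.bdd_at_cusps'
            ((Subgroup.IsArithmetic.isCusp_iff_isCusp_SL2Z _).mp hc) }, rfl⟩

section conjugates

variable {k k₁ k₂ : ℤ}

/-- The conjugates `f_q` of a form on `Γ₀(N)`. -/
noncomputable def cj (f : ModularForm (Γ0 N) k) (q : Q N) : ℍ → ℂ :=
  SlashInvariantForm.quotientFunc f q

theorem cj_mk (f : ModularForm (Γ0 N) k) (γ : 𝒮ℒ) :
    cj f (γ : Q N) = (f : ℍ → ℂ) ∣[k] (γ : GL (Fin 2) ℝ)⁻¹ := rfl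

theorem cj_q₀ (f : ModularForm (Γ0 N) k) : cj f (q₀ N) = f := by
  rw [q₀, cj_mk]
  simp

theorem det_of_mem_SL {γ : GL (Fin 2) ℝ} (hγ : γ ∈ 𝒮ℒ) : |(γ.det : ℝ)| = 1 := by
  obtain ⟨g, rfl⟩ := hγ
  simp

theorem cj_mul (f : ModularForm (Γ0 N) k₁) (g : ModularForm (Γ0 N) k₂) (q : Q N) :
    cj (f.mul g) q = cj f q * cj g q := by
  induction q using Quotient.inductionOn with
  | h γ =>
    change cj (f.mul g) (γ : Q N) = cj f (γ : Q N) * cj g (γ : Q N)
    rw [cj_mk, cj_mk, cj_mk, ModularForm.coe_mul, ModularForm.mul_slash,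
      det_of_mem_SL (inv_mem γ.2), one_smul]

theorem cj_pow (f : ModularForm (Γ0 N) k) (n : ℕ) (q : Q N) :
    cj (f.pow n) q = (cj f q) ^ n := by
  induction q using Quotient.inductionOn with
  | h γ =>
    change cj (f.pow n) (γ : Q N) = (cj f (γ : Q N)) ^ n
    rw [cj_mk, cj_mk, ModularForm.coe_pow]
    have h := ModularForm.prod_slash (k := k) (g := (γ : GL (Fin 2) ℝ)⁻¹)
      (f := fun _ : Fin n ↦ (f : ℍ → ℂ)) (s := Finset.univ)
    simp only [Finset.prod_const, Finset.card_univ, Fintype.card_fin] at h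
    rw [mul_comm] at h
    rw [h, det_of_mem_SL (inv_mem γ.2)]
    simp

theorem cj_mdiff (f : ModularForm (Γ0 N) k) (q : Q N) : MDiff (cj f q) := by
  induction q using Quotient.inductionOn with
  | h γ => exact (ModularForm.translate f _).holo'

theorem cj_bdd (f : ModularForm (Γ0 N) k) (q : Q N) : IsBoundedAtImInfty (cj f q) := by
  induction q using Quotient.inductionOn with
  | h γ =>
    obtain ⟨γ, g, rfl⟩ := γ
    change IsBoundedAtImInfty ((f : ℍ → ℂ) ∣[k] (mapGL ℝ g)⁻¹)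
    rw [← map_inv]
    exact ModularFormClass.bdd_at_infty_slash f g⁻¹

theorem cj_zero_at (f : CuspForm (Γ0 N) k) (q : Q N) :
    IsZeroAtImInfty (cj (f : ModularForm (Γ0 N) k) q) := by
  induction q using Quotient.inductionOn with
  | h γ =>
    obtain ⟨γ, g, rfl⟩ := γ
    change IsZeroAtImInfty ((f : ℍ → ℂ) ∣[k] (mapGL ℝ g)⁻¹)
    rw [← map_inv]
    exact CuspFormClass.zero_at_infty_slash f g⁻¹

/-- the action of `SL₂(ℤ)` permutes the conjugates -/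
theorem cj_slash (f : ModularForm (Γ0 N) k) (γ : 𝒮ℒ) (q : Q N) :
    cj f q ∣[k] (γ : GL (Fin 2) ℝ) = cj f (γ⁻¹ • q) :=
  SlashInvariantForm.quotientFunc_smul f γ.2 q

/-- mixed power sums of conjugates are level-one forms (Mathlib's trace) -/
theorem isMFn_sum_cj (f : ModularForm (Γ0 N) k) :
    IsMFn 𝒮ℒ k (∑ q : Q N, cj f q) := by
  refine ⟨ModularForm.trace 𝒮ℒ f, ?_⟩
  rw [ModularForm.coe_trace]
  rfl

end conjugates

section symmetric

variable {k w : ℤ}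

/-- mixed power sums `∑_q f_q h_q^j` -/
noncomputable def Pfun (f : ModularForm (Γ0 N) k) (h : ModularForm (Γ0 N) w) (j : ℕ) : ℍ → ℂ :=
  ∑ q : Q N, cj f q * cj h q ^ j

theorem isMFn_Pfun (f : ModularForm (Γ0 N) k) (h : ModularForm (Γ0 N) w) (j : ℕ) :
    IsMFn 𝒮ℒ (k + j * w) (Pfun f h j) := by
  have := isMFn_sum_cj (f.mul (h.pow j))
  simpa only [Pfun, cj_mul, cj_pow] using this

theorem Pfun_apply (f : ModularForm (Γ0 N) k) (h : ModularForm (Γ0 N) w) (j : ℕ) (z : ℍ) :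
    Pfun f h j z = Alg.ps (fun q ↦ cj h q z) (fun q ↦ cj f q z) j := by
  simp [Pfun, Alg.ps]

/-- pure power sums `∑_q h_q^j` -/
noncomputable def psumFun (h : ModularForm (Γ0 N) w) (j : ℕ) : ℍ → ℂ :=
  ∑ q : Q N, cj h q ^ j

theorem isMFn_psumFun (h : ModularForm (Γ0 N) w) (j : ℕ) :
    IsMFn 𝒮ℒ (j * w) (psumFun h j) := by
  have := isMFn_sum_cj (h.pow j)
  simpa only [psumFun, cj_pow] using this

/-- elementary symmetric functions of the conjugates -/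
noncomputable def Efun (h : ModularForm (Γ0 N) w) (i : ℕ) : ℍ → ℂ :=
  fun z ↦ Alg.es (fun q ↦ cj h q z) i

theorem Efun_zero (h : ModularForm (Γ0 N) w) : Efun h 0 = 1 := by
  ext z
  simp [Efun, Alg.es_zero]

/-- Newton's identity, pointwise -/
theorem newton_pointwise {ι : Type*} [Fintype ι] (x : ι → ℂ) (i : ℕ) :
    (i : ℂ) * Alg.es x i = (-1) ^ (i + 1) *
      ∑ a ∈ (antidiagonal i).filter (fun a ↦ a.1 < i),
        (-1) ^ a.1 * Alg.es x a.1 * ∑ q, x q ^ a.2 := by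
  have h := congrArg (MvPolynomial.aeval x) (MvPolynomial.mul_esymm_eq_sum ι ℂ i)
  simp only [map_mul, map_natCast, map_pow, map_neg, map_one, map_sum,
    MvPolynomial.aeval_esymm_eq_multiset_esymm, MvPolynomial.psum, MvPolynomial.aeval_X] at h
  exact h

theorem newton_fun (h : ModularForm (Γ0 N) w) (i : ℕ) :
    (i : ℂ) • Efun h i = ((-1 : ℂ) ^ (i + 1)) •
      ∑ a ∈ (antidiagonal i).filter (fun a ↦ a.1 < i),
        ((-1 : ℂ) ^ a.1) • (Efun h a.1 * psumFun h a.2) := by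
  ext z
  have := newton_pointwise (fun q ↦ cj h q z) i
  simp only [Pi.smul_apply, smul_eq_mul, Finset.sum_apply, Pi.mul_apply, Efun, psumFun,
    Pi.pow_apply]
  rw [this]
  congr 1
  refine Finset.sum_congr rfl fun a _ ↦ ?_
  ring

theorem isMFn_Efun (h : ModularForm (Γ0 N) w) (i : ℕ) : IsMFn 𝒮ℒ (i * w) (Efun h i) := by
  induction i using Nat.strong_induction_on with
  | _ i ih =>
    rcases Nat.eq_zero_or_pos i with rfl | hi
    · rw [Efun_zero]
      simpa using (IsMFn.one : IsMFn 𝒮ℒ 0 (1 : ℍ → ℂ))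
    · have hne : (i : ℂ) ≠ 0 := by exact_mod_cast hi.ne'
      have hE : Efun h i = ((i : ℂ)⁻¹) • ((i : ℂ) • Efun h i) := by
        rw [smul_smul, inv_mul_cancel₀ hne, one_smul]
      rw [hE, newton_fun]
      refine IsMFn.smul _ (IsMFn.smul _ (IsMFn.sum _ _ fun a ha ↦ IsMFn.smul _ ?_))
      rw [mem_filter, HasAntidiagonal.mem_antidiagonal] at ha
      refine IsMFn.of_eq ?_ ((ih a.1 ha.2).mul (isMFn_psumFun h a.2))
      rw [← ha.1]
      push_cast
      ring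

/-- for a cusp form the elementary symmetric functions `e_i`, `i ≥ 1`, vanish at `i∞` -/
theorem Efun_zero_at (f : CuspForm (Γ0 N) k) {i : ℕ} (hi : 0 < i) :
    IsZeroAtImInfty (Efun (f : ModularForm (Γ0 N) k) i) := by
  have hE : Efun (f : ModularForm (Γ0 N) k) i = fun z ↦ ∑ t ∈ (univ : Finset (Q N)).powersetCard i,
      ∏ q ∈ t, cj (f : ModularForm (Γ0 N) k) q z := by
    ext z
    simp [Efun, Alg.es, Finset.esymm_map_val]
  rw [hE, IsZeroAtImInfty, Filter.ZeroAtFilter]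
  rw [show (0 : ℂ) = ∑ t ∈ (univ : Finset (Q N)).powersetCard i, 0 by simp]
  refine tendsto_finsetSum _ fun t ht ↦ ?_
  obtain ⟨q, hq⟩ : t.Nonempty := by
    rw [← Finset.card_pos, (mem_powersetCard.mp ht).2]
    exact hi
  rw [show (0 : ℂ) = ∏ q' ∈ t, (0 : ℂ) from (Finset.prod_eq_zero hq rfl).symm]
  exact tendsto_finsetProd _ fun q' _ ↦ cj_zero_at f q'

end symmetric

end Fermat.Agent.S23
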