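import Mathlib

/-!
# Integral meromorphic functions are holomorphic

If `u, w` are holomorphic on an open set `Ω ⊆ ℂ`, `w` has isolated zeros, and `u / w` satisfies a
monic polynomial equation with continuous coefficients (in homogenised form
`∑_{i≤μ} b_i u^{μ-i} w^i = 0`, `b_0 = 1`), then `u = F w` for a holomorphic `F`.
-/

open Filter Topology Function Finset

namespace Fermat.Agent.S23

/-- Cauchy's bound for the roots of a monic polynomial. -/
theorem cauchy_bound (μ : ℕ) (b : ℕ → ℂ) (hb0 : b 0 = 1) (x : ℂ)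
    (hx : ∑ i ∈ range (μ + 1), b i * x ^ (μ - i) = 0) :
    ‖x‖ ≤ max 1 (∑ i ∈ range μ, ‖b (i + 1)‖) := by
  by_contra hcon
  rw [not_le, max_lt_iff] at hcon
  obtain ⟨h1, hS⟩ := hcon
  rw [Finset.sum_range_succ', hb0, one_mul, Nat.sub_zero] at hx
  have hxμ : x ^ μ = -∑ i ∈ range μ, b (i + 1) * x ^ (μ - (i + 1)) := by
    linear_combination hx
  rcases Nat.eq_zero_or_pos μ with rfl | hμ
  · simp at hxμ
  have hle : ‖x‖ ^ μ ≤ (∑ i ∈ range μ, ‖b (i + 1)‖) * ‖x‖ ^ (μ - 1) := by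
    calc ‖x‖ ^ μ = ‖x ^ μ‖ := (norm_pow x μ).symm
      _ = ‖∑ i ∈ range μ, b (i + 1) * x ^ (μ - (i + 1))‖ := by rw [hxμ, norm_neg]
      _ ≤ ∑ i ∈ range μ, ‖b (i + 1) * x ^ (μ - (i + 1))‖ := norm_sum_le _ _
      _ ≤ ∑ i ∈ range μ, ‖b (i + 1)‖ * ‖x‖ ^ (μ - 1) := by
          refine Finset.sum_le_sum fun i _ ↦ ?_
          rw [norm_mul, norm_pow]
          gcongr
          · exact h1.le
          · omega
      _ = (∑ i ∈ range μ, ‖b (i + 1)‖) * ‖x‖ ^ (μ - 1) := by rw [Finset.sum_mul]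
  have hpos : 0 < ‖x‖ ^ (μ - 1) := pow_pos (lt_trans zero_lt_one h1) _
  have hx' : ‖x‖ ^ μ = ‖x‖ * ‖x‖ ^ (μ - 1) := by
    rw [← pow_succ', Nat.sub_add_cancel hμ]
  rw [hx'] at hle
  exact absurd (le_of_mul_le_mul_right hle hpos) (not_le.mpr hS)

/-- If moreover `‖x‖ ≤ 1` then `‖x‖ ^ μ ≤ ∑ ‖b_{i+1}‖`. -/
theorem pow_le_of_monic (μ : ℕ) (b : ℕ → ℂ) (hb0 : b 0 = 1) (x : ℂ)
    (hx : ∑ i ∈ range (μ + 1), b i * x ^ (μ - i) = 0) (h1 : ‖x‖ ≤ 1) :
    ‖x‖ ^ μ ≤ ∑ i ∈ range μ, ‖b (i + 1)‖ := by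
  rw [Finset.sum_range_succ', hb0, one_mul, Nat.sub_zero] at hx
  have hxμ : x ^ μ = -∑ i ∈ range μ, b (i + 1) * x ^ (μ - (i + 1)) := by
    linear_combination hx
  calc ‖x‖ ^ μ = ‖x ^ μ‖ := (norm_pow x μ).symm
    _ = ‖∑ i ∈ range μ, b (i + 1) * x ^ (μ - (i + 1))‖ := by rw [hxμ, norm_neg]
    _ ≤ ∑ i ∈ range μ, ‖b (i + 1) * x ^ (μ - (i + 1))‖ := norm_sum_le _ _
    _ ≤ ∑ i ∈ range μ, ‖b (i + 1)‖ := by
        refine Finset.sum_le_sum fun i _ ↦ ?_
        rw [norm_mul, norm_pow]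
        exact mul_le_of_le_one_right (norm_nonneg _) (pow_le_one₀ (norm_nonneg _) h1)

/-- **Integral + meromorphic ⇒ holomorphic.** -/
theorem exists_differentiableOn_mul_eq {Ω : Set ℂ} (hΩ : IsOpen Ω) (u w : ℂ → ℂ)
    (hu : DifferentiableOn ℂ u Ω) (hw : DifferentiableOn ℂ w Ω)
    (hw0 : ∀ c ∈ Ω, ∀ᶠ z in 𝓝[≠] c, w z ≠ 0)
    (μ : ℕ) (b : ℕ → ℂ → ℂ) (hb : ∀ i, ContinuousOn (b i) Ω) (hb0 : ∀ z ∈ Ω, b 0 z = 1)
    (heq : ∀ z ∈ Ω, ∑ i ∈ range (μ + 1), b i z * u z ^ (μ - i) * w z ^ i = 0) :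
    ∃ F : ℂ → ℂ, DifferentiableOn ℂ F Ω ∧ ∀ z ∈ Ω, F z * w z = u z := by
  set G : ℂ → ℂ := fun z ↦ u z / w z with hG
  -- (K1) at points where `w ≠ 0` the function `G` is differentiable and equals its limit
  have hGdiff : ∀ z ∈ Ω, w z ≠ 0 → DifferentiableAt ℂ G z := fun z hz hwz ↦
    ((hu z hz).differentiableAt (hΩ.mem_nhds hz)).div
      ((hw z hz).differentiableAt (hΩ.mem_nhds hz)) hwz
  have hlim : ∀ z ∈ Ω, w z ≠ 0 → limUnder (𝓝[≠] z) G = G z := fun z hz hwz ↦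
    ((hGdiff z hz hwz).continuousAt.tendsto.mono_left nhdsWithin_le_nhds).limUnder_eq
  -- (K2) the monic equation for `G`
  have hmonic : ∀ z ∈ Ω, w z ≠ 0 → ∑ i ∈ range (μ + 1), b i z * G z ^ (μ - i) = 0 := by
    intro z hz hwz
    have h := heq z hz
    have h2 : ∑ i ∈ range (μ + 1), b i z * G z ^ (μ - i) =
        (∑ i ∈ range (μ + 1), b i z * u z ^ (μ - i) * w z ^ i) / w z ^ μ := by
      rw [Finset.sum_div]
      refine Finset.sum_congr rfl fun i hi ↦ ?_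
      have hi' : i ≤ μ := Nat.lt_succ_iff.mp (mem_range.mp hi)
      have hwμ : w z ^ μ = w z ^ (μ - i) * w z ^ i := by
        rw [← pow_add, Nat.sub_add_cancel hi']
      rw [hG]
      simp only
      rw [div_pow, hwμ]
      field_simp
    rw [h2, h, zero_div]
  have hbound : ∀ z ∈ Ω, w z ≠ 0 → ‖G z‖ ≤ max 1 (∑ i ∈ range μ, ‖b (i + 1) z‖) :=
    fun z hz hwz ↦ cauchy_bound μ (fun i ↦ b i z) (hb0 z hz) (G z) (hmonic z hz hwz)
  refine ⟨fun z ↦ limUnder (𝓝[≠] z) G, ?_, ?_⟩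
  · intro c hc
    -- (K3) a small ball
    obtain ⟨r₁, hr₁, hball₁⟩ := Metric.eventually_nhds_iff.mp
      (eventually_nhdsWithin_iff.mp (hw0 c hc))
    obtain ⟨r₂, hr₂, hball₂⟩ := Metric.isOpen_iff.mp hΩ c hc
    set r := min r₁ (r₂ / 2) with hr
    have hr0 : 0 < r := lt_min hr₁ (half_pos hr₂)
    have hcl : Metric.closedBall c r ⊆ Ω := fun z hz ↦ hball₂ <| by
      rw [Metric.mem_closedBall] at hz
      rw [Metric.mem_ball]
      exact lt_of_le_of_lt (hz.trans (min_le_right _ _)) (half_lt_self hr₂)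
    have hwne : ∀ z ∈ Metric.ball c r, z ≠ c → w z ≠ 0 := fun z hz hzc ↦
      hball₁ (lt_of_lt_of_le (Metric.mem_ball.mp hz) (min_le_left _ _)) hzc
    have hsub : Metric.ball c r ⊆ Ω := Metric.ball_subset_closedBall.trans hcl
    -- (K4) differentiable and bounded on the punctured ball
    have hd : DifferentiableOn ℂ G (Metric.ball c r \ {c}) := fun z hz ↦
      (hGdiff z (hsub hz.1) (hwne z hz.1 hz.2)).differentiableWithinAt
    have hcont : ContinuousOn (fun z ↦ ∑ i ∈ range μ, ‖b (i + 1) z‖) (Metric.closedBall c r) :=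
      continuousOn_finsetSum _ fun i _ ↦ ((hb (i + 1)).mono hcl).norm
    obtain ⟨M, hM⟩ := (isCompact_closedBall c r).bddAbove_image hcont
    have hbdd : BddAbove (norm ∘ G '' (Metric.ball c r \ {c})) := by
      refine ⟨max 1 M, ?_⟩
      rintro _ ⟨z, hz, rfl⟩
      refine (hbound z (hsub hz.1) (hwne z hz.1 hz.2)).trans (max_le_max le_rfl ?_)
      exact hM ⟨z, Metric.ball_subset_closedBall hz.1, rfl⟩
    have H := Complex.differentiableOn_update_limUnder_of_bddAbove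
      (Metric.ball_mem_nhds c hr0) hd hbdd
    -- (K5) `F` agrees with the updated function on the ball
    have hFH : ∀ z ∈ Metric.ball c r,
        (fun z ↦ limUnder (𝓝[≠] z) G) z = update G c (limUnder (𝓝[≠] c) G) z := by
      intro z hz
      by_cases hzc : z = c
      · subst hzc
        simp
      · simp only [update_of_ne hzc]
        exact hlim z (hsub hz) (hwne z hz hzc)
    have hdc : DifferentiableAt ℂ (update G c (limUnder (𝓝[≠] c) G)) c :=
      (H c (Metric.mem_ball_self hr0)).differentiableAt (Metric.ball_mem_nhds c hr0)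
    have hev : (fun z ↦ limUnder (𝓝[≠] z) G) =ᶠ[𝓝 c] update G c (limUnder (𝓝[≠] c) G) :=
      Filter.eventually_of_mem (Metric.ball_mem_nhds c hr0) hFH
    exact (hdc.congr_of_eventuallyEq hev).differentiableWithinAt
  · intro z hz
    by_cases hwz : w z = 0
    · have h := heq z hz
      rw [Finset.sum_eq_single 0] at h
      · rw [hb0 z hz, one_mul, pow_zero, mul_one, Nat.sub_zero] at h
        rcases Nat.eq_zero_or_pos μ with rfl | hμ
        · simp at h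
        · rw [hwz, mul_zero]
          exact (pow_eq_zero_iff hμ.ne').mp h |>.symm
      · intro i _ hi
        rw [hwz, zero_pow hi, mul_zero]
      · intro h0
        exact absurd (mem_range.mpr (Nat.succ_pos μ)) h0
    · simp only
      rw [hlim z hz hwz, hG]
      simp only
      exact div_mul_cancel₀ _ hwz

end Fermat.Agent.S23
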