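import Mathlib
import Fermat.Agent.S23.Removable
import Fermat.Agent.S23.Expr

/-!
# Holomorphic quotient on the upper half plane

If `U, W` are holomorphic on `ℍ`, `W ≠ 0` and `U/W` satisfies a monic polynomial equation with
continuous coefficients (in homogenised form), then `U = F W` with `F` holomorphic on `ℍ`.
-/

open UpperHalfPlane Filter Function Finset
open scoped Manifold Topology

namespace Fermat.Agent.S23

theorem eventually_ne_zero_of_mdiff {W : ℍ → ℂ} (hW : MDiff W) (hW0 : W ≠ 0)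
    (c : ℂ) (hc : 0 < c.im) : ∀ᶠ z in 𝓝[≠] c, (W ∘ ofComplex) z ≠ 0 := by
  have hWd := UpperHalfPlane.mdifferentiable_iff.mp hW
  have han := hWd.analyticOnNhd isOpen_upperHalfPlaneSet
  by_contra hcon
  rw [not_eventually] at hcon
  simp only [not_not] at hcon
  have h0 := han.eqOn_zero_of_preconnected_of_frequently_eq_zero
    (Complex.isConnected_of_upperHalfPlane subset_rfl (by grind)).isPreconnected hc hcon
  apply hW0
  ext w
  have := h0 w.im_pos
  simpa using this

theorem exists_mdiff_mul_eq (U W : ℍ → ℂ) (hU : MDiff U) (hW : MDiff W) (hW0 : W ≠ 0)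
    (μ : ℕ) (ε : ℕ → ℍ → ℂ) (hε : ∀ i, Continuous (ε i)) (hε0 : ε 0 = 1)
    (hH : Hexpr μ ε U W = 0) : ∃ F : ℍ → ℂ, MDiff F ∧ F * W = U := by
  have hΩ : IsOpen {z : ℂ | 0 < z.im} := isOpen_upperHalfPlaneSet
  have hofc : ContinuousOn ofComplex {z : ℂ | 0 < z.im} := fun z hz ↦
    (mdifferentiableAt_ofComplex hz).continuousAt.continuousWithinAt
  obtain ⟨F, hF, hFW⟩ := exists_differentiableOn_mul_eq hΩ (U ∘ ofComplex) (W ∘ ofComplex)
    (UpperHalfPlane.mdifferentiable_iff.mp hU) (UpperHalfPlane.mdifferentiable_iff.mp hW)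
    (fun c hc ↦ eventually_ne_zero_of_mdiff hW hW0 c hc) μ
    (fun i z ↦ (-1) ^ i * ε i (ofComplex z))
    (fun i ↦ continuousOn_const.mul ((hε i).comp_continuousOn hofc))
    (fun z _ ↦ by simp [hε0])
    (fun z _ ↦ by
      have := congrFun hH (ofComplex z)
      rw [Hexpr_apply] at this
      simpa [Hexpr] using this)
  refine ⟨fun τ ↦ F τ, ?_, ?_⟩
  · rw [UpperHalfPlane.mdifferentiable_iff]
    refine hF.congr fun z hz ↦ ?_
    simp [ofComplex_apply_of_im_pos hz]
  · ext τ
    have := hFW τ τ.im_pos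
    simpa using this

end Fermat.Agent.S23
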