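import Mathlib
import Fermat.Agent.S23.Quotient
import Fermat.Agent.S23.Conj
import Fermat.Agent.S23.QExp

/-!
# A cusp form from a quotient `U / W` that is integral over level-one forms

Abstract form of the Galois-conjugation theorem: if `W ≠ 0`, `U` are modular forms on `Γ₀(N)` of
weights `kW`, `k + kW`, and `U / W` satisfies the monic equation `Mexpr μ ε · = 0` whose
coefficients `ε_i` are level-one forms of weight `i k` vanishing at `i∞` for `i ≥ 1`, then `U / W`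
is a cusp form of weight `k` on `Γ₀(N)`.
-/

open UpperHalfPlane ModularFormClass CongruenceSubgroup Matrix.SpecialLinearGroup Finset Filter
open scoped MatrixGroups ModularForm Manifold Topology

namespace Fermat.Agent.S23

/-- the monic equation is invariant under the slash action of `SL₂(ℤ)` -/
theorem Mexpr_slash {k : ℤ} (μ : ℕ) (ε : ℕ → ℍ → ℂ) (hε : ∀ i : ℕ, IsMFn 𝒮ℒ ((i : ℤ) * k) (ε i))
    (F : ℍ → ℂ) (hM : Mexpr μ ε F = 0) (γ : SL(2, ℤ)) : Mexpr μ ε (F ∣[k] γ) = 0 := by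
  ext z
  have hMz := congrFun hM (γ • z)
  rw [Mexpr_apply] at hMz ⊢
  simp only [Pi.zero_apply] at hMz ⊢
  set d : ℂ := denom γ z with hd
  have hd0 : d ≠ 0 := denom_ne_zero _ z
  set D : ℂ := d ^ k with hD
  have hD0 : D ≠ 0 := zpow_ne_zero k hd0
  have hF : (F ∣[k] γ) z = F (γ • z) * D⁻¹ := by
    rw [ModularForm.SL_slash_apply, zpow_neg]
  have hεi : ∀ i : ℕ, ε i z = ε i (γ • z) * (D⁻¹) ^ i := by
    intro i
    have h1 : (ε i) ∣[(i : ℤ) * k] γ = ε i := by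
      rw [ModularForm.SL_slash]
      exact (hε i).slash_eq ⟨γ, rfl⟩
    have h2 := congrFun h1 z
    rw [ModularForm.SL_slash_apply] at h2
    rw [← h2, zpow_neg, mul_comm (i : ℤ) k, zpow_mul, zpow_natCast, inv_pow]
  rw [Mexpr] at hMz ⊢
  have key : ∀ i ∈ range (μ + 1), (-1 : ℂ) ^ i * ε i z * ((F ∣[k] γ) z) ^ (μ - i) =
      (D⁻¹) ^ μ * ((-1) ^ i * ε i (γ • z) * F (γ • z) ^ (μ - i)) := by
    intro i hi
    have hi' : i ≤ μ := Nat.lt_succ_iff.mp (mem_range.mp hi)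
    have hpow : (D⁻¹) ^ μ = (D⁻¹) ^ i * (D⁻¹) ^ (μ - i) := by
      rw [← pow_add, Nat.add_sub_cancel' hi']
    rw [hF, hεi i, hpow, mul_pow]
    ring
  rw [Finset.sum_congr rfl key, ← Finset.mul_sum, hMz, mul_zero]

/-- a root of a monic equation whose lower coefficients tend to `0` tends to `0` -/
theorem isZeroAtImInfty_of_monic (μ : ℕ) (ε : ℕ → ℍ → ℂ) (hε0 : ε 0 = 1)
    (hεz : ∀ i, 0 < i → IsZeroAtImInfty (ε i)) (G : ℍ → ℂ) (hM : Mexpr μ ε G = 0) :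
    IsZeroAtImInfty G := by
  set S : ℍ → ℝ := fun z ↦ ∑ i ∈ range μ, ‖ε (i + 1) z‖ with hS
  have hSt : Tendsto S atImInfty (𝓝 0) := by
    have : Tendsto S atImInfty (𝓝 (∑ i ∈ range μ, (0 : ℝ))) := by
      refine tendsto_finsetSum _ fun i _ ↦ ?_
      have := (hεz (i + 1) (Nat.succ_pos i)).norm
      simpa using this
    simpa using this
  have hroot : ∀ z, ∑ i ∈ range (μ + 1), ((-1 : ℂ) ^ i * ε i z) * (G z) ^ (μ - i) = 0 := by
    intro z
    have := congrFun hM z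
    rw [Mexpr_apply] at this
    simpa [Mexpr] using this
  have hb0 : ∀ z, (fun i ↦ (-1 : ℂ) ^ i * ε i z) 0 = 1 := by
    intro z
    simp [hε0]
  have hnorm : ∀ z, ∑ i ∈ range μ, ‖(fun i ↦ (-1 : ℂ) ^ i * ε i z) (i + 1)‖ = S z := by
    intro z
    simp [hS]
  rw [IsZeroAtImInfty, ZeroAtFilter, Metric.tendsto_nhds]
  intro δ hδ
  have hδμ : 0 < min 1 (δ ^ μ) := lt_min one_pos (pow_pos hδ μ)
  filter_upwards [hSt.eventually_lt_const hδμ] with z hz
  have hz1 : S z < 1 := lt_of_lt_of_le hz (min_le_left _ _)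
  have hz2 : S z < δ ^ μ := lt_of_lt_of_le hz (min_le_right _ _)
  have hle1 : ‖G z‖ ≤ 1 := by
    have := cauchy_bound μ (fun i ↦ (-1 : ℂ) ^ i * ε i z) (hb0 z) (G z) (hroot z)
    rw [hnorm z] at this
    exact this.trans (max_le le_rfl hz1.le)
  have hpow := pow_le_of_monic μ (fun i ↦ (-1 : ℂ) ^ i * ε i z) (hb0 z) (G z) (hroot z) hle1
  rw [hnorm z] at hpow
  rw [dist_zero_right]
  exact lt_of_pow_lt_pow_left₀ μ hδ.le (lt_of_le_of_lt hpow hz2)

variable {N : ℕ} [NeZero N]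

/-- **Abstract conjugation theorem.** -/
theorem exists_cuspForm_of_data {k kW : ℤ} (μ : ℕ) (hμ : 0 < μ)
    (W U : ℍ → ℂ) (hW : IsMFn (Γ0 N) kW W) (hU : IsMFn (Γ0 N) (k + kW) U) (hW0 : W ≠ 0)
    (ε : ℕ → ℍ → ℂ) (hε : ∀ i : ℕ, IsMFn 𝒮ℒ ((i : ℤ) * k) (ε i)) (hε0 : ε 0 = 1)
    (hεz : ∀ i, 0 < i → IsZeroAtImInfty (ε i))
    (hH : Hexpr μ ε U W = 0) :
    ∃ g : CuspForm (Γ0 N) k, (g : ℍ → ℂ) * W = U := by
  have hWd : MDiff W := hW.mdiff
  have hUd : MDiff U := hU.mdiff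
  obtain ⟨F, hFd, hFW⟩ := exists_mdiff_mul_eq U W hUd hWd hW0 μ ε
    (fun i ↦ (hε i).mdiff.continuous) hε0 hH
  -- the monic equation for `F`
  have hεd : ∀ i, MDiff (ε i) := fun i ↦ (hε i).mdiff
  have hMd : MDiff (Mexpr μ ε F) := by
    rw [Mexpr]
    refine MDifferentiable.sum fun i _ ↦ ?_
    exact (((mdifferentiable_const (c := (-1 : ℂ))).pow i |>.mul (hεd i))).mul (hFd.pow _)
  have hM : Mexpr μ ε F = 0 := by
    have h1 : W ^ μ * Mexpr μ ε F = 0 := by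
      rw [← Hexpr_eq, hFW, hH]
    rcases (UpperHalfPlane.mul_eq_zero_iff (hWd.pow μ) hMd).mp h1 with h | h
    · exact absurd (pow_eq_zero_iff (Nat.pos_iff_ne_zero.mp hμ) |>.mp h) hW0
    · exact h
  -- invariance
  have hinv : ∀ γ ∈ Γ0 N, F ∣[k] γ = F := by
    intro γ hγ
    have hdet : |(γ.det : ℝ)| = 1 := det_of_mem_SL (Γ0_le_SL N hγ)
    have h1 : U ∣[k + kW] γ = (F ∣[k] γ) * W := by
      rw [← hFW, ModularForm.mul_slash, hdet, one_smul, hW.slash_eq hγ]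
    rw [hU.slash_eq hγ, ← hFW] at h1
    have h2 : (F ∣[k] γ - F) * W = 0 := by
      rw [sub_mul, ← h1, sub_self]
    rcases (UpperHalfPlane.mul_eq_zero_iff ((hFd.slash k γ).sub hFd) hWd).mp h2 with h | h
    · exact sub_eq_zero.mp h
    · exact absurd h hW0
  -- cusps
  have hcusp : ∀ γ : SL(2, ℤ), IsZeroAtImInfty (F ∣[k] γ) := fun γ ↦
    isZeroAtImInfty_of_monic μ ε hε0 hεz _ (Mexpr_slash μ ε hε F hM γ)
  refine ⟨{ toFun := F
            slash_action_eq' := hinv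
            holo' := hFd
            zero_at_cusps' := fun {c} hc ↦ ?_ }, hFW⟩
  have hc' := (Subgroup.IsArithmetic.isCusp_iff_isCusp_SL2Z _).mp hc
  rw [OnePoint.isZeroAt_iff_forall_SL2Z hc']
  exact fun γ _ ↦ hcusp γ

end Fermat.Agent.S23
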