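import Mathlib

/-!
# Level one modular forms are spanned by forms with bounded-denominator rational q-expansions
-/

open UpperHalfPlane ModularForm ModularFormClass MatrixGroups EisensteinSeries

namespace Fermat.Agent.S23

/-- A power series over `ℂ` with rational coefficients of bounded denominator. -/
def BddDenom (P : PowerSeries ℂ) : Prop :=
  ∃ M : ℕ, 0 < M ∧ ∀ n, ∃ m : ℤ, (M : ℂ) * P.coeff n = m

namespace BddDenom

variable {P Q : PowerSeries ℂ}

theorem zero : BddDenom 0 := ⟨1, one_pos, fun n => ⟨0, by simp⟩⟩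

theorem add (hP : BddDenom P) (hQ : BddDenom Q) : BddDenom (P + Q) := by
  obtain ⟨M, hM, hP⟩ := hP
  obtain ⟨N, hN, hQ⟩ := hQ
  refine ⟨M * N, Nat.mul_pos hM hN, fun n => ?_⟩
  obtain ⟨a, ha⟩ := hP n
  obtain ⟨b, hb⟩ := hQ n
  refine ⟨N * a + M * b, ?_⟩
  push_cast
  rw [map_add, ← ha, ← hb]
  ring

theorem neg (hP : BddDenom P) : BddDenom (-P) := by
  obtain ⟨M, hM, hP⟩ := hP
  refine ⟨M, hM, fun n => ?_⟩
  obtain ⟨a, ha⟩ := hP n
  exact ⟨-a, by push_cast; rw [map_neg, ← ha]; ring⟩

theorem sub (hP : BddDenom P) (hQ : BddDenom Q) : BddDenom (P - Q) := by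
  rw [sub_eq_add_neg]; exact hP.add hQ.neg

theorem mul (hP : BddDenom P) (hQ : BddDenom Q) : BddDenom (P * Q) := by
  obtain ⟨M, hM, hP⟩ := hP
  obtain ⟨N, hN, hQ⟩ := hQ
  choose a ha using hP
  choose b hb using hQ
  refine ⟨M * N, Nat.mul_pos hM hN, fun n => ?_⟩
  refine ⟨∑ p ∈ Finset.HasAntidiagonal.antidiagonal n, a p.1 * b p.2, ?_⟩
  rw [PowerSeries.coeff_mul, Finset.mul_sum]
  push_cast
  refine Finset.sum_congr rfl fun p _ => ?_
  rw [← ha, ← hb]
  ring

theorem smul_rat (r : ℚ) (hP : BddDenom P) : BddDenom ((r : ℂ) • P) := by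
  obtain ⟨M, hM, hP⟩ := hP
  refine ⟨r.den * M, Nat.mul_pos r.den_pos hM, fun n => ?_⟩
  obtain ⟨a, ha⟩ := hP n
  refine ⟨r.num * a, ?_⟩
  have hr : (r : ℂ) = (r.num : ℂ) / (r.den : ℂ) := by
    rw [← Rat.cast_natCast, ← Rat.cast_intCast, ← Rat.cast_div, Rat.num_div_den]
  have hden : (r.den : ℂ) ≠ 0 := by exact_mod_cast r.den_nz
  push_cast
  rw [PowerSeries.coeff_smul, smul_eq_mul, ← ha, hr]
  field_simp

theorem pow (hP : BddDenom P) (n : ℕ) : BddDenom (P ^ n) := by
  induction n with
  | zero => exact ⟨1, one_pos, fun n => by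
      by_cases h : n = 0
      · exact ⟨1, by simp [h]⟩
      · exact ⟨0, by simp [PowerSeries.coeff_one, h]⟩⟩
  | succ k ih => rw [pow_succ]; exact ih.mul hP

end BddDenom

/-- The Eisenstein series have rational q-expansions with bounded denominators. -/
theorem bddDenom_E {k : ℕ} (hk : 3 ≤ k) (hk2 : Even k) : BddDenom (qExpansion 1 (E hk)) := by
  set r : ℚ := -(2 * k / bernoulli k) with hr
  refine ⟨r.den, r.den_pos, fun n => ?_⟩
  rw [E_qExpansion_coeff hk hk2]
  split_ifs with h
  · exact ⟨r.den, by simp⟩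
  · refine ⟨r.num * (ArithmeticFunction.sigma (k - 1) n : ℕ), ?_⟩
    have hrc : (-(2 * k / bernoulli k : ℂ)) = (r : ℂ) := by
      rw [hr]; push_cast; ring
    have hr' : (r : ℂ) = (r.num : ℂ) / (r.den : ℂ) := by
      rw [← Rat.cast_natCast, ← Rat.cast_intCast, ← Rat.cast_div, Rat.num_div_den]
    have hden : (r.den : ℂ) ≠ 0 := by exact_mod_cast r.den_nz
    rw [hrc, hr']
    push_cast
    field_simp

/-- The modular discriminant has a rational q-expansion with bounded denominators. -/
theorem bddDenom_discriminant : BddDenom (qExpansion 1 ModularForm.discriminant) := by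
  let G : ModularForm 𝒮ℒ 12 :=
    ModularForm.mcast (by decide) (E₄.pow 3) - ModularForm.mcast (by decide) (E₆.pow 2)
  have hG : qExpansion 1 G = qExpansion 1 E₄ ^ 3 - qExpansion 1 E₆ ^ 2 := by
    simp only [G, FunLike.coe_sub, coe_mcast,
      ModularForm.qExpansion_sub one_pos one_mem_strictPeriods_SL,
      ModularForm.qExpansion_pow one_pos one_mem_strictPeriods_SL]
  have hΔ : (ModularForm.discriminant : ℍ → ℂ) = (((1 / 1728 : ℚ) : ℂ) • G : ModularForm 𝒮ℒ 12) := by
    ext z
    rw [discriminant_eq_E₄_cube_sub_E₆_sq z]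
    simp only [G, smul_apply, sub_apply, mcast_apply, coe_pow,
      Pi.pow_apply, smul_eq_mul]
    push_cast
    ring
  rw [hΔ, FunLike.coe_smul, ModularForm.qExpansion_smul one_pos one_mem_strictPeriods_SL, hG]
  exact BddDenom.smul_rat _
    (((bddDenom_E (by norm_num) ⟨2, rfl⟩).pow 3).sub ((bddDenom_E (by norm_num) ⟨3, rfl⟩).pow 2))

/-- Multiplication by the discriminant, as a linear map `M_{w-12} → M_w`. -/
noncomputable def mulDiscriminant (w : ℤ) : ModularForm 𝒮ℒ (w - 12) →ₗ[ℂ] ModularForm 𝒮ℒ w where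
  toFun h := ModularForm.mcast (by ring) ((CuspForm.discriminant : ModularForm 𝒮ℒ 12).mul h)
  map_add' a b := by
    ext z
    simp [mcast_apply, mul_add]
  map_smul' c a := by
    ext z
    simp [mcast_apply]
    ring

theorem mulDiscriminant_apply (w : ℤ) (h : ModularForm 𝒮ℒ (w - 12)) (z : ℍ) :
    mulDiscriminant w h z = ModularForm.discriminant z * h z := rfl

theorem qExpansion_mulDiscriminant (w : ℤ) (h : ModularForm 𝒮ℒ (w - 12)) :
    qExpansion 1 (mulDiscriminant w h) =
      qExpansion 1 ModularForm.discriminant * qExpansion 1 h := by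
  have : (mulDiscriminant w h : ℍ → ℂ) = (CuspForm.discriminant : ℍ → ℂ) * (h : ℍ → ℂ) := by
    ext z; rfl
  rw [this, ModularForm.qExpansion_mul_coe one_pos one_mem_strictPeriods_SL]
  rfl

/-- The set of level one forms of weight `w` with bounded-denominator q-expansion. -/
def bddSet (w : ℤ) : Set (ModularForm 𝒮ℒ w) := {c | BddDenom (qExpansion 1 c)}

theorem levelOne_mem_span_aux (n : ℕ) :
    ∀ w : ℤ, w < n → ∀ f : ModularForm 𝒮ℒ w, f ∈ Submodule.span ℂ (bddSet w) := by
  induction n with
  | zero =>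
    intro w hw f
    have hf : f = 0 := by
      ext z
      have := levelOne_neg_weight_eq_zero (by simpa using hw) f
      rw [this]; rfl
    rw [hf]; exact Submodule.zero_mem _
  | succ n ih =>
    intro w hw f
    have hw' : w < (n : ℤ) + 1 := by push_cast at hw; exact hw
    rcases lt_or_eq_of_le (Int.lt_add_one_iff.mp hw') with h | h
    · exact ih w h f
    subst h
    -- weight exactly `n`
    rcases Nat.even_or_odd n with hev | hodd
    swap
    · rw [ModularForm.levelOne_odd_weight_eq_zero (by exact_mod_cast hodd) f]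
      exact Submodule.zero_mem _
    by_cases hn0 : n = 0
    · subst hn0
      obtain ⟨c, hc⟩ := levelOne_weight_zero_const f
      have hf : f = c • (ModularForm.mcast (by simp) (1 : ModularForm 𝒮ℒ 0) :
          ModularForm 𝒮ℒ ((0 : ℕ) : ℤ)) := by
        ext z
        rw [hc]; simp [mcast_apply]
      rw [hf]
      refine Submodule.smul_mem _ _ (Submodule.subset_span ?_)
      show BddDenom _
      rw [ModularForm.qExpansion_mcast, ModularForm.qExpansion_one]
      have := BddDenom.pow (P := 0) BddDenom.zero 0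
      simpa using this
    by_cases hn2 : n = 2
    · subst hn2
      have h0 := levelOne_weight_two_rank_zero
      rw [rank_zero_iff_forall_zero] at h0
      rw [show f = 0 from h0 f]
      exact Submodule.zero_mem _
    have hk : 3 ≤ n := by
      obtain ⟨m, hm⟩ := hev
      omega
    -- subtract the Eisenstein series
    have hcusp0 := sub_smul_isCuspForm f (E hk) (E_qExpansion_coeff_zero hk hev)
    have hcusp := (isCuspForm_iff_coeffZero_eq_zero _).mp hcusp0
    generalize (qExpansion 1 f).coeff 0 = a₀ at hcusp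
    set h := CuspForm.discriminantEquiv (toCuspForm (f - a₀ • E hk) hcusp) with hh
    have hf : f = a₀ • E hk + mulDiscriminant n h := by
      ext z
      have h1 : ModularForm.discriminant z * h z = (f - a₀ • E hk) z :=
        discriminant_mul_discriminantEquiv_apply (toCuspForm (f - a₀ • E hk) hcusp) z
      have h2 : (a₀ • E hk + mulDiscriminant n h) z =
          a₀ • E hk z + ModularForm.discriminant z * h z := rfl
      have h3 : (f - a₀ • E hk) z = f z - a₀ • E hk z := rfl
      rw [h2, h1, h3]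
      ring
    rw [hf]
    refine Submodule.add_mem _ (Submodule.smul_mem _ _ (Submodule.subset_span ?_)) ?_
    · exact bddDenom_E hk hev
    · have hmem : h ∈ Submodule.span ℂ (bddSet ((n : ℤ) - 12)) := ih _ (by omega) h
      have hle : Submodule.span ℂ (bddSet ((n : ℤ) - 12)) ≤
          (Submodule.span ℂ (bddSet (n : ℤ))).comap (mulDiscriminant n) := by
        rw [Submodule.span_le]
        intro c hc
        refine Submodule.subset_span ?_
        show BddDenom _
        rw [qExpansion_mulDiscriminant]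
        exact bddDenom_discriminant.mul hc
      exact hle hmem

/-- **M1.** Level-one forms are spanned by forms whose q-coefficients lie in `(1/M)ℤ` for
some `M`. -/
theorem levelOne_span_bddDenom (w : ℤ) :
    Submodule.span ℂ {c : ModularForm 𝒮ℒ w | ∃ M : ℕ, 0 < M ∧
      ∀ n, ∃ m : ℤ, (M : ℂ) * (qExpansion 1 c).coeff n = m} = ⊤ := by
  rw [eq_top_iff]
  intro f _
  exact levelOne_mem_span_aux (w.toNat + 1) w (by omega) f

end Fermat.Agent.S23
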