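import Mathlib
import Fermat.Agent.S23.LevelOne

/-!
# Applying a `ℚ`-linear map to the q-expansion of a level one form (S23, piece T1)
-/

open UpperHalfPlane ModularForm ModularFormClass MatrixGroups

namespace Fermat.Agent.S23

theorem levelOne_map_aux (w : ℤ) (π : ℂ →ₗ[ℚ] ℂ) (c : ModularForm 𝒮ℒ w) :
    ∀ a : ℂ, ∃ c' : ModularForm 𝒮ℒ w,
      (∀ n, (qExpansion 1 c').coeff n = π (a * (qExpansion 1 c).coeff n)) ∧
      ((∀ z, ∃ r : ℚ, π z = r) → BddDenom (qExpansion 1 c')) := by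
  have hc : c ∈ Submodule.span ℂ {c : ModularForm 𝒮ℒ w | ∃ M : ℕ, 0 < M ∧
      ∀ n, ∃ m : ℤ, (M : ℂ) * (qExpansion 1 c).coeff n = m} := by
    rw [levelOne_span_bddDenom]; trivial
  induction hc using Submodule.span_induction with
  | mem c hc =>
    intro a
    obtain ⟨M, hM, hc⟩ := hc
    refine ⟨π a • c, fun n => ?_, fun hπ => ?_⟩
    · obtain ⟨m, hm⟩ := hc n
      have hM0 : (M : ℂ) ≠ 0 := by exact_mod_cast hM.ne'
      have h1 : (qExpansion 1 c).coeff n = ((m / M : ℚ) : ℂ) := by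
        push_cast
        rw [← hm]
        field_simp
      rw [FunLike.coe_smul, ModularForm.qExpansion_smul one_pos one_mem_strictPeriods_SL,
        PowerSeries.coeff_smul, h1, smul_eq_mul]
      have h2 : a * ((m / M : ℚ) : ℂ) = (m / M : ℚ) • a := by
        rw [Rat.smul_def]; ring
      rw [h2, map_smul, Rat.smul_def]
      ring
    · obtain ⟨r, hr⟩ := hπ a
      rw [FunLike.coe_smul, ModularForm.qExpansion_smul one_pos one_mem_strictPeriods_SL, hr]
      exact BddDenom.smul_rat r ⟨M, hM, hc⟩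
  | zero =>
    intro a
    refine ⟨0, fun n => ?_, fun _ => ?_⟩
    · simp [UpperHalfPlane.qExpansion_zero]
    · have : qExpansion 1 ((0 : ModularForm 𝒮ℒ w) : ℍ → ℂ) = 0 := by
        simp [UpperHalfPlane.qExpansion_zero]
      rw [this]
      exact BddDenom.zero
  | add x y _ _ hx hy =>
    intro a
    obtain ⟨x', hx1, hx2⟩ := hx a
    obtain ⟨y', hy1, hy2⟩ := hy a
    refine ⟨x' + y', fun n => ?_, fun hπ => ?_⟩
    · rw [FunLike.coe_add, ModularForm.qExpansion_add one_pos one_mem_strictPeriods_SL,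
        FunLike.coe_add, ModularForm.qExpansion_add one_pos one_mem_strictPeriods_SL,
        map_add, map_add, hx1, hy1, mul_add, map_add]
    · rw [FunLike.coe_add, ModularForm.qExpansion_add one_pos one_mem_strictPeriods_SL]
      exact (hx2 hπ).add (hy2 hπ)
  | smul b x _ hx =>
    intro a
    obtain ⟨x', hx1, hx2⟩ := hx (a * b)
    refine ⟨x', fun n => ?_, hx2⟩
    rw [hx1, FunLike.coe_smul, ModularForm.qExpansion_smul one_pos one_mem_strictPeriods_SL,
      PowerSeries.coeff_smul, smul_eq_mul, mul_assoc]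

/-- **T1a**. A `ℚ`-linear map can be applied to the q-expansion of a level one form. -/
theorem levelOne_map (w : ℤ) (π : ℂ →ₗ[ℚ] ℂ) (c : ModularForm 𝒮ℒ w) :
    ∃ c' : ModularForm 𝒮ℒ w,
      ∀ n, (qExpansion 1 c').coeff n = π ((qExpansion 1 c).coeff n) := by
  obtain ⟨c', h, -⟩ := levelOne_map_aux w π c 1
  exact ⟨c', fun n => by rw [h, one_mul]⟩

/-- A `ℚ`-linear retraction of `ℂ` onto `ℚ`. -/
theorem exists_rat_retraction :
    ∃ π : ℂ →ₗ[ℚ] ℂ, (∀ z, ∃ r : ℚ, π z = r) ∧ ∀ r : ℚ, π r = r := by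
  let ι : ℚ →ₗ[ℚ] ℂ := Algebra.linearMap ℚ ℂ
  have hι : LinearMap.ker ι = ⊥ := by
    rw [LinearMap.ker_eq_bot]
    exact (algebraMap ℚ ℂ).injective
  obtain ⟨ℓ, hℓ⟩ := ι.exists_leftInverse_of_injective hι
  refine ⟨ι ∘ₗ ℓ, fun z => ⟨ℓ z, ?_⟩, fun r => ?_⟩
  · simp [ι]
  · have h1 : ℓ (r : ℂ) = r := by
      have := LinearMap.congr_fun hℓ r
      simpa [ι] using this
    simp [ι, h1]

/-- **T1b**. A level one form with rational q-expansion has bounded denominators. -/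
theorem levelOne_bddDenom_of_rat (w : ℤ) (c : ModularForm 𝒮ℒ w)
    (hc : ∀ n, ∃ r : ℚ, (qExpansion 1 c).coeff n = r) : BddDenom (qExpansion 1 c) := by
  obtain ⟨π, hπ1, hπ2⟩ := exists_rat_retraction
  obtain ⟨c', h1, h2⟩ := levelOne_map_aux w π c 1
  have h3 : qExpansion 1 c' = qExpansion 1 c := by
    ext n
    obtain ⟨r, hr⟩ := hc n
    rw [h1, one_mul, hr, hπ2]
  rw [← h3]
  exact h2 hπ1

end Fermat.Agent.S23
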