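import Mathlib
import Fermat.Agent.S23.Conj
import Fermat.Agent.S23.Expr

/-!
# The structure identities `f · W = U` and `M(f) = 0`

For `h ∈ M_w(Γ₀(N))` and `f ∈ M_k(Γ₀(N))`, with `E_i = e_i(h_q)`, `P_j = ∑_q f_q h_q^j`,
`ε_i = e_i(f_q)` (all level-one forms):
* `W = Wexpr μ E h = ∏_{q ≠ q₀} (h - h_q)`;
* `f · W = Uexpr μ E P h`;
* `Mexpr μ ε f = 0`.
-/

open UpperHalfPlane ModularFormClass CongruenceSubgroup Matrix.SpecialLinearGroup Finset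
open scoped MatrixGroups ModularForm Manifold

namespace Fermat.Agent.S23

variable {N : ℕ} [NeZero N] {k w : ℤ}

/-- the number of conjugates -/
noncomputable abbrev μQ (N : ℕ) [NeZero N] : ℕ := Fintype.card (Q N)

theorem μQ_pos (N : ℕ) [NeZero N] : 0 < μQ N := Fintype.card_pos_iff.mpr ⟨q₀ N⟩

/-- the different `W = ∏_{q ≠ q₀} (h - h_q)` -/
noncomputable def Wfun (h : ModularForm (Γ0 N) w) : ℍ → ℂ :=
  Wexpr (μQ N) (Efun h) (h : ℍ → ℂ)

/-- the Lagrange numerator -/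
noncomputable def Ufun (f : ModularForm (Γ0 N) k) (h : ModularForm (Γ0 N) w) : ℍ → ℂ :=
  Uexpr (μQ N) (Efun h) (Pfun f h) (h : ℍ → ℂ)

theorem Wfun_apply (h : ModularForm (Γ0 N) w) (z : ℍ) :
    Wfun h z = ∏ q ∈ univ.erase (q₀ N), (h z - cj h q z) := by
  rw [Wfun, Wexpr_apply]
  have := Wexpr_es (fun q ↦ cj h q z) (q₀ N)
  simp only [cj_q₀] at this
  rw [this]
  rfl

theorem Wfun_eq_prod (h : ModularForm (Γ0 N) w) :
    Wfun h = ∏ q ∈ univ.erase (q₀ N), ((h : ℍ → ℂ) - cj h q) := by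
  ext z
  rw [Wfun_apply, Finset.prod_apply]
  rfl

theorem mul_Wfun (f : ModularForm (Γ0 N) k) (h : ModularForm (Γ0 N) w) :
    (f : ℍ → ℂ) * Wfun h = Ufun f h := by
  ext z
  rw [Pi.mul_apply, Wfun_apply, Ufun, Uexpr_apply]
  have := Uexpr_es (fun q ↦ cj h q z) (fun q ↦ cj f q z) (q₀ N)
  simp only [cj_q₀] at this
  rw [this]
  congr 1
  ext j
  exact (Pfun_apply f h j z).symm

theorem Wfun_ne_zero (h : ModularForm (Γ0 N) w) (hh : ∀ q : Q N, q ≠ q₀ N → cj h q ≠ h) :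
    Wfun h ≠ 0 := by
  rw [Wfun_eq_prod]
  intro h0
  have hmd : ∀ q ∈ univ.erase (q₀ N), MDiff ((h : ℍ → ℂ) - cj h q) := fun q _ ↦
    (ModularFormClass.holo h).sub (cj_mdiff h q)
  obtain ⟨q, hq, hq0⟩ := (UpperHalfPlane.prod_eq_zero_iff hmd).mp h0
  exact hh q (mem_erase.mp hq).1 (sub_eq_zero.mp hq0).symm

theorem Mexpr_Efun (f : ModularForm (Γ0 N) k) :
    Mexpr (μQ N) (Efun f) (f : ℍ → ℂ) = 0 := by
  ext z
  rw [Mexpr_apply]
  have := Mexpr_es (fun q ↦ cj f q z) (q₀ N)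
  simp only [cj_q₀] at this
  exact this

end Fermat.Agent.S23
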