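import Mathlib
import Fermat.Agent.S23.Conj
import Fermat.Agent.S23.Expr

/-!
# Weights of the expressions `Wexpr`, `Uexpr`
-/

open UpperHalfPlane ModularFormClass CongruenceSubgroup Matrix.SpecialLinearGroup Finset
open scoped MatrixGroups ModularForm Manifold

namespace Fermat.Agent.S23

variable {N : ℕ} [NeZero N] {k w : ℤ}

theorem IsMFn.neg_one_pow_mul {Γ : Subgroup (GL (Fin 2) ℝ)} [Γ.HasDetOne] {k : ℤ} {f : ℍ → ℂ}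
    (hf : IsMFn Γ k f) (m : ℕ) : IsMFn Γ k ((-1) ^ m * f) := by
  have : ((-1 : ℍ → ℂ) ^ m * f) = ((-1 : ℂ) ^ m) • f := by
    ext z
    simp
  rw [this]
  exact hf.smul _

theorem isMFn_Wexpr (μ : ℕ) {E : ℕ → ℍ → ℂ} {h : ℍ → ℂ}
    (hE : ∀ i : ℕ, IsMFn 𝒮ℒ ((i : ℤ) * w) (E i)) (hh : IsMFn (Γ0 N) w h) :
    IsMFn (Γ0 N) (((μ - 1 : ℕ) : ℤ) * w) (Wexpr μ E h) := by
  rw [Wexpr]
  refine IsMFn.sum _ _ fun n hn ↦ ?_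
  have hn' : n < μ := mem_range.mp hn
  have h1 : IsMFn (Γ0 N) (((μ - 1 - n : ℕ) : ℤ) * w)
      (∑ i ∈ Icc (n + 1) μ, (-1) ^ (μ - i) * E (μ - i) * h ^ (i - (n + 1))) := by
    refine IsMFn.sum _ _ fun i hi ↦ ?_
    obtain ⟨hi1, hi2⟩ := mem_Icc.mp hi
    refine IsMFn.of_eq ?_ ((((hE (μ - i)).of_levelOne).neg_one_pow_mul (μ - i)).mul
      (hh.pow (i - (n + 1))))
    rw [← add_mul]
    congr 1
    omega
  refine IsMFn.of_eq ?_ (h1.mul (hh.pow n))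
  rw [← add_mul]
  congr 1
  omega

theorem isMFn_Uexpr (μ : ℕ) {E P : ℕ → ℍ → ℂ} {h : ℍ → ℂ}
    (hE : ∀ i : ℕ, IsMFn 𝒮ℒ ((i : ℤ) * w) (E i))
    (hP : ∀ j : ℕ, IsMFn 𝒮ℒ (k + (j : ℤ) * w) (P j)) (hh : IsMFn (Γ0 N) w h) :
    IsMFn (Γ0 N) (k + ((μ - 1 : ℕ) : ℤ) * w) (Uexpr μ E P h) := by
  rw [Uexpr]
  refine IsMFn.sum _ _ fun n hn ↦ ?_
  have hn' : n < μ := mem_range.mp hn
  have h1 : IsMFn (Γ0 N) (k + ((μ - 1 - n : ℕ) : ℤ) * w)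
      (∑ i ∈ Icc (n + 1) μ, (-1) ^ (μ - i) * E (μ - i) * P (i - (n + 1))) := by
    refine IsMFn.sum _ _ fun i hi ↦ ?_
    obtain ⟨hi1, hi2⟩ := mem_Icc.mp hi
    refine IsMFn.of_eq ?_ ((((hE (μ - i)).of_levelOne).neg_one_pow_mul (μ - i)).mul
      ((hP (i - (n + 1))).of_levelOne))
    have : ((μ - i : ℕ) : ℤ) + ((i - (n + 1) : ℕ) : ℤ) = ((μ - 1 - n : ℕ) : ℤ) := by omega
    rw [← this]
    ring
  refine IsMFn.of_eq ?_ (h1.mul (hh.pow n))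
  have : ((μ - 1 - n : ℕ) : ℤ) + (n : ℤ) = ((μ - 1 : ℕ) : ℤ) := by omega
  rw [← this]
  ring

end Fermat.Agent.S23
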