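import Mathlib
import Fermat.Agent.S23.CuspOfData
import Fermat.Agent.S23.Structure
import Fermat.Agent.S23.Weights
import Fermat.Agent.S23.LevelOneMap
import Fermat.Agent.S23.Primitive

/-!
# Galois conjugation of cusp forms on `Γ₀(N)`

For every ring automorphism (indeed endomorphism) `σ` of `ℂ` and every cusp form `f` on `Γ₀(N)`
there is a cusp form `g` of the same weight with `q`-expansion `σ(f)`.
-/

open UpperHalfPlane ModularFormClass CongruenceSubgroup Matrix.SpecialLinearGroup Finset Filter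
open scoped MatrixGroups ModularForm Manifold Topology

namespace Fermat.Agent.S23

/-- a ring endomorphism of `ℂ` as a `ℚ`-linear map -/
noncomputable def ratLin (σ : ℂ →+* ℂ) : ℂ →ₗ[ℚ] ℂ := σ.toAddMonoidHom.toRatLinearMap

@[simp] theorem ratLin_apply (σ : ℂ →+* ℂ) (z : ℂ) : ratLin σ z = σ z := rfl

theorem IsMFn.nice_levelOne {w : ℤ} {c : ℍ → ℂ} (hc : IsMFn 𝒮ℒ w c) : Nice c :=
  hc.nice one_mem_strictPeriods_SL

theorem IsMFn.nice_Γ0 {N : ℕ} {w : ℤ} {c : ℍ → ℂ} (hc : IsMFn (Γ0 N) w c) : Nice c :=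
  hc.nice (one_mem_strictPeriods_Γ0 N)

/-- conjugation of level-one forms -/
theorem exists_levelOne_conj (σ : ℂ →+* ℂ) {w : ℤ} {c : ℍ → ℂ} (hc : IsMFn 𝒮ℒ w c) :
    ∃ c' : ℍ → ℂ, IsMFn 𝒮ℒ w c' ∧ qExpansion 1 c' = (qExpansion 1 c).map σ := by
  obtain ⟨C, rfl⟩ := hc
  obtain ⟨C', hC'⟩ := levelOne_map w (ratLin σ) C
  refine ⟨C', ⟨C', rfl⟩, ?_⟩
  ext n
  rw [hC', PowerSeries.coeff_map, ratLin_apply]

theorem map_ne_zero_of_ne_zero (σ : ℂ →+* ℂ) {p : PowerSeries ℂ} (hp : p ≠ 0) :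
    p.map σ ≠ 0 := by
  intro h
  apply hp
  ext n
  have := congrArg (PowerSeries.coeff n) h
  rw [PowerSeries.coeff_map, map_zero] at this
  rw [map_zero]
  exact (map_eq_zero σ).mp this

variable {N : ℕ} [NeZero N]

/-- **Galois conjugation.** -/
theorem exists_conj (σ : ℂ →+* ℂ) {k : ℤ} (f : CuspForm (Γ0 N) k) :
    ∃ g : CuspForm (Γ0 N) k, qExpansion 1 g = (qExpansion 1 f).map σ := by
  obtain ⟨w, h, hrat, hdist⟩ := exists_primitive N
  set fM : ModularForm (Γ0 N) k := (f : ModularForm (Γ0 N) k) with hfM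
  have hfMcoe : (fM : ℍ → ℂ) = f := rfl
  set μ := μQ N with hμ
  have hμ0 : 0 < μ := μQ_pos N
  -- the level one data
  have hE : ∀ i : ℕ, IsMFn 𝒮ℒ ((i : ℤ) * w) (Efun h i) := fun i ↦ isMFn_Efun h i
  have hP : ∀ j : ℕ, IsMFn 𝒮ℒ (k + (j : ℤ) * w) (Pfun fM h j) := fun j ↦ isMFn_Pfun fM h j
  have hε : ∀ i : ℕ, IsMFn 𝒮ℒ ((i : ℤ) * k) (Efun fM i) := fun i ↦ isMFn_Efun fM i
  choose E' hE' hE'q using fun i ↦ exists_levelOne_conj σ (hE i)
  choose P' hP' hP'q using fun j ↦ exists_levelOne_conj σ (hP j)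
  choose ε' hε' hε'q using fun i ↦ exists_levelOne_conj σ (hε i)
  have hh : IsMFn (Γ0 N) w h := IsMFn.coe h
  have hhN : Nice (h : ℍ → ℂ) := hh.nice_Γ0
  have hfN : Nice (f : ℍ → ℂ) := (IsMFn.coe fM).nice_Γ0
  have hEN : ∀ i, Nice (Efun h i) := fun i ↦ (hE i).nice_levelOne
  have hPN : ∀ i, Nice (Pfun fM h i) := fun i ↦ (hP i).nice_levelOne
  have hεN : ∀ i, Nice (Efun fM i) := fun i ↦ (hε i).nice_levelOne
  have hE'N : ∀ i, Nice (E' i) := fun i ↦ (hE' i).nice_levelOne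
  have hP'N : ∀ i, Nice (P' i) := fun i ↦ (hP' i).nice_levelOne
  have hε'N : ∀ i, Nice (ε' i) := fun i ↦ (hε' i).nice_levelOne
  -- `h` is rational
  have hσh : (qExpansion 1 h).map σ = qExpansion 1 h := by
    ext n
    obtain ⟨r, hr⟩ := hrat n
    rw [PowerSeries.coeff_map, hr, map_ratCast]
  set W := Wfun h with hWdef
  set U := Ufun fM h with hUdef
  set W' := Wexpr μ E' (h : ℍ → ℂ) with hW'def
  set U' := Uexpr μ E' P' (h : ℍ → ℂ) with hU'def
  have hWN : Nice W := nice_Wexpr μ hEN hhN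
  have hUN : Nice U := nice_Uexpr μ hEN hPN hhN
  have hW'N : Nice W' := nice_Wexpr μ hE'N hhN
  have hU'N : Nice U' := nice_Uexpr μ hE'N hP'N hhN
  have hW' : IsMFn (Γ0 N) (((μ - 1 : ℕ) : ℤ) * w) W' := isMFn_Wexpr μ hE' hh
  have hU' : IsMFn (Γ0 N) (k + ((μ - 1 : ℕ) : ℤ) * w) U' := isMFn_Uexpr μ hE' hP' hh
  -- q-expansions of the conjugated data
  have hqW : qExpansion 1 W' = (qExpansion 1 W).map σ := by
    rw [hW'def, hWdef, Wfun, qExpansion_Wexpr μ hE'N hhN, qExpansion_Wexpr μ hEN hhN,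
      map_Wexpr (PowerSeries.map σ), hσh]
    simp only [hE'q]
  have hqU : qExpansion 1 U' = (qExpansion 1 U).map σ := by
    rw [hU'def, hUdef, Ufun, qExpansion_Uexpr μ hE'N hP'N hhN, qExpansion_Uexpr μ hEN hPN hhN,
      map_Uexpr (PowerSeries.map σ), hσh]
    simp only [hE'q, hP'q]
  -- `W' ≠ 0`
  have hW0 : W ≠ 0 := Wfun_ne_zero h fun q hq ↦ hdist q hq
  have hqW0 : qExpansion 1 W ≠ 0 := fun h0 ↦ hW0 (hWN.qExpansion_eq_zero_iff.mp h0)
  have hqW'0 : qExpansion 1 W' ≠ 0 := by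
    rw [hqW]
    exact map_ne_zero_of_ne_zero σ hqW0
  have hW'0 : W' ≠ 0 := by
    intro h0
    apply hqW'0
    rw [h0, qExpansion_zero]
  -- `ε' 0 = 1`
  have hε'0 : ε' 0 = 1 := by
    refine Nice.qExpansion_injective (hε'N 0) Nice.one ?_
    rw [hε'q 0, Efun_zero, qExpansion_one, map_one]
  -- `ε' i` vanishes at `i∞`
  have hε'z : ∀ i, 0 < i → IsZeroAtImInfty (ε' i) := by
    intro i hi
    rw [(hε'N i).isZeroAtImInfty_iff, hε'q i, PowerSeries.coeff_map]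
    have := ((hεN i).isZeroAtImInfty_iff).mp (Efun_zero_at f hi)
    rw [this, map_zero]
  -- the homogenised equation
  have hUW : (f : ℍ → ℂ) * W = U := mul_Wfun fM h
  have hH0 : Hexpr μ (Efun fM) U W = 0 := by
    rw [← hUW, Hexpr_eq, ← hfMcoe, Mexpr_Efun fM, mul_zero]
  have hH : Hexpr μ ε' U' W' = 0 := by
    refine (nice_Hexpr μ hε'N hU'N hW'N).qExpansion_eq_zero_iff.mp ?_
    rw [qExpansion_Hexpr μ hε'N hU'N hW'N, hqU, hqW]
    simp only [hε'q]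
    rw [← map_Hexpr (PowerSeries.map σ), ← qExpansion_Hexpr μ hεN hUN hWN, hH0, qExpansion_zero,
      map_zero]
  obtain ⟨g, hg⟩ := exists_cuspForm_of_data (k := k) μ hμ0 W' U' hW' hU' hW'0 ε' hε' hε'0 hε'z hH
  refine ⟨g, ?_⟩
  have hgN : Nice (g : ℍ → ℂ) := Nice.of_modularForm (one_mem_strictPeriods_Γ0 N) g
  have h1 : qExpansion 1 g * qExpansion 1 W' = (qExpansion 1 f).map σ * qExpansion 1 W' := by
    rw [← qExpansion_mul_nice hgN hW'N, hg, hqU, hqW, ← hUW, qExpansion_mul_nice hfN hWN, map_mul]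
  exact mul_right_cancel₀ hqW'0 h1

end Fermat.Agent.S23
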