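import Mathlib
import Fermat.Agent.S23.LevelOne
import Fermat.Agent.S23.Expr

/-!
# S23, piece T2: bounded denominators from integrality

A power series `g` over `ℂ` which is a quotient of two power series with bounded denominators and
a root of a monic polynomial whose coefficients have bounded denominators has bounded
denominators itself, because `ℤ⟦X⟧` is integrally closed.
-/

set_option autoImplicit false

open Finset Polynomial

namespace Fermat.Agent.S23

/-- The inclusion `ℤ⟦X⟧ → ℂ⟦X⟧`. -/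
noncomputable def intIncl : PowerSeries ℤ →+* PowerSeries ℂ :=
  PowerSeries.map (Int.castRingHom ℂ)

theorem coeff_intIncl (P : PowerSeries ℤ) (n : ℕ) :
    (intIncl P).coeff n = ((P.coeff n : ℤ) : ℂ) := by
  simp [intIncl]

theorem intIncl_injective : Function.Injective intIncl := by
  intro P Q h
  ext n
  have := congrArg (fun S : PowerSeries ℂ => S.coeff n) h
  simp only [coeff_intIncl] at this
  exact_mod_cast this

/-- `BddDenom P` means that a positive integer multiple of `P` has integer coefficients. -/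
theorem bddDenom_iff {P : PowerSeries ℂ} :
    BddDenom P ↔ ∃ M : ℕ, 0 < M ∧ ∃ P₀ : PowerSeries ℤ,
      PowerSeries.C (M : ℂ) * P = intIncl P₀ := by
  constructor
  · rintro ⟨M, hM, h⟩
    choose m hm using h
    refine ⟨M, hM, PowerSeries.mk m, ?_⟩
    ext n
    rw [PowerSeries.coeff_C_mul, coeff_intIncl, PowerSeries.coeff_mk, hm]
  · rintro ⟨M, hM, P₀, h⟩
    refine ⟨M, hM, fun n => ⟨P₀.coeff n, ?_⟩⟩
    have := congrArg (fun S : PowerSeries ℂ => S.coeff n) h
    simp only [PowerSeries.coeff_C_mul, coeff_intIncl] at this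
    exact this

/-- A common denominator for finitely many power series with bounded denominators. -/
theorem exists_common_denom (μ : ℕ) (ε : ℕ → PowerSeries ℂ) (hε : ∀ i, BddDenom (ε i)) :
    ∃ D : ℕ, 0 < D ∧ ∀ i ≤ μ, ∃ e : PowerSeries ℤ,
      PowerSeries.C (D : ℂ) * ε i = intIncl e := by
  induction μ with
  | zero =>
    obtain ⟨M, hM, P₀, h⟩ := bddDenom_iff.mp (hε 0)
    refine ⟨M, hM, fun i hi => ?_⟩
    have : i = 0 := Nat.le_zero.mp hi
    subst this
    exact ⟨P₀, h⟩
  | succ k ih =>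
    obtain ⟨D, hD, hDk⟩ := ih
    obtain ⟨M, hM, P₀, h⟩ := bddDenom_iff.mp (hε (k + 1))
    refine ⟨D * M, Nat.mul_pos hD hM, fun i hi => ?_⟩
    rcases Nat.lt_or_ge i (k + 1) with hlt | hge
    · obtain ⟨e, he⟩ := hDk i (Nat.lt_succ_iff.mp hlt)
      refine ⟨PowerSeries.C (M : ℤ) * e, ?_⟩
      rw [map_mul, ← he]
      have : intIncl (PowerSeries.C (M : ℤ)) = PowerSeries.C (M : ℂ) := by
        simp [intIncl]
      rw [this]
      push_cast
      rw [map_mul]
      ring
    · have hi' : i = k + 1 := le_antisymm hi hge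
      subst hi'
      refine ⟨PowerSeries.C (D : ℤ) * P₀, ?_⟩
      rw [map_mul, ← h]
      have : intIncl (PowerSeries.C (D : ℤ)) = PowerSeries.C (D : ℂ) := by
        simp [intIncl]
      rw [this]
      push_cast
      rw [map_mul]
      ring

/-- The polynomial `∑_{i ≤ μ} (-1)^i c_i T^(μ-i)`. -/
noncomputable def monicPoly {R : Type*} [CommRing R] (μ : ℕ) (c : ℕ → R) : R[X] :=
  ∑ i ∈ range (μ + 1), Polynomial.C ((-1) ^ i * c i) * Polynomial.X ^ (μ - i)

theorem monicPoly_monic {R : Type*} [CommRing R] [Nontrivial R] (μ : ℕ) (c : ℕ → R)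
    (hc : c 0 = 1) : (monicPoly μ c).Monic := by
  rw [monicPoly, Finset.sum_range_succ']
  simp only [pow_zero, one_mul, hc, map_one, Nat.sub_zero]
  rw [add_comm]
  refine Polynomial.monic_X_pow_add ?_
  refine lt_of_le_of_lt (Polynomial.degree_sum_le _ _) ?_
  rw [Finset.sup_lt_iff (by exact WithBot.bot_lt_coe μ)]
  intro i hi
  have hi' : i < μ := Finset.mem_range.mp hi
  refine lt_of_le_of_lt (Polynomial.degree_C_mul_X_pow_le _ _) ?_
  exact_mod_cast (by omega : μ - (i + 1) < μ)

theorem eval₂_monicPoly {R S : Type*} [CommRing R] [CommRing S] (φ : R →+* S) (μ : ℕ)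
    (c : ℕ → R) (x : S) :
    (monicPoly μ c).eval₂ φ x = Mexpr μ (fun i => φ (c i)) x := by
  rw [monicPoly, Mexpr, Polynomial.eval₂_finsetSum]
  refine Finset.sum_congr rfl fun i _ => ?_
  rw [Polynomial.eval₂_mul, Polynomial.eval₂_C, Polynomial.eval₂_X_pow, map_mul, map_pow,
    map_neg, map_one]

/-- The integral closedness of `ℤ⟦X⟧`, in a concrete form. -/
theorem exists_intIncl_eq_of_integral (μ : ℕ) (c : ℕ → PowerSeries ℤ) (hc : c 0 = 1)
    (G : PowerSeries ℂ) (a b : PowerSeries ℤ) (ha : a ≠ 0) (hab : G * intIncl a = intIncl b)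
    (hG : Mexpr μ (fun i => intIncl (c i)) G = 0) :
    ∃ y : PowerSeries ℤ, G = intIncl y := by
  -- the homogenised equation holds in `ℤ⟦X⟧`
  have hH : Hexpr μ c b a = 0 := by
    apply intIncl_injective
    rw [map_Hexpr, ← hab, Hexpr_eq, hG, mul_zero, map_zero]
  -- `x = b / a` is integral over `ℤ⟦X⟧`
  set K := FractionRing (PowerSeries ℤ)
  set a' : K := algebraMap (PowerSeries ℤ) K a with ha'
  set b' : K := algebraMap (PowerSeries ℤ) K b with hb'
  have ha'0 : a' ≠ 0 := by
    rw [ha', ne_eq, IsFractionRing.to_map_eq_zero_iff]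
    exact ha
  have hx : Mexpr μ (fun i => algebraMap (PowerSeries ℤ) K (c i)) (b' / a') = 0 := by
    have h1 := congrArg (algebraMap (PowerSeries ℤ) K) hH
    rw [map_Hexpr, map_zero] at h1
    have h2 : b' = (b' / a') * a' := (div_mul_cancel₀ b' ha'0).symm
    have h1' : Hexpr μ (fun i => algebraMap (PowerSeries ℤ) K (c i)) ((b' / a') * a') a' = 0 := by
      rw [← h2]
      exact h1
    rw [Hexpr_eq] at h1'
    rcases mul_eq_zero.mp h1' with h3 | h3
    · exact absurd h3 (pow_ne_zero μ ha'0)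
    · exact h3
  have hint : IsIntegral (PowerSeries ℤ) (b' / a') :=
    ⟨monicPoly μ c, monicPoly_monic μ c hc, by rw [eval₂_monicPoly]; exact hx⟩
  obtain ⟨y, hy⟩ := IsIntegrallyClosed.isIntegral_iff.mp hint
  refine ⟨y, ?_⟩
  have h4 : y * a = b := by
    apply IsFractionRing.injective (PowerSeries ℤ) K
    rw [map_mul, hy]
    exact div_mul_cancel₀ b' ha'0
  have h5 : intIncl y * intIncl a = G * intIncl a := by
    rw [← map_mul, h4, hab]
  have ha0 : intIncl a ≠ 0 := by
    intro h
    exact ha (intIncl_injective (by rw [h, map_zero]))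
  exact (mul_right_cancel₀ ha0 h5).symm

theorem intIncl_C_natCast (M : ℕ) :
    intIncl (PowerSeries.C ((M : ℕ) : ℤ)) = PowerSeries.C ((M : ℕ) : ℂ) := by
  simp [intIncl]

/-- **T2.** A power series which is a quotient of two power series with bounded denominators and
which satisfies a monic equation whose coefficients have bounded denominators has bounded
denominators. -/
@[nolint unusedArguments]
theorem bddDenom_of_frac_of_integral (μ : ℕ) (g W U : PowerSeries ℂ) (ε : ℕ → PowerSeries ℂ)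
    (hg : ∀ n, ∃ r : ℚ, g.coeff n = r)
    (hW : BddDenom W) (hU : BddDenom U) (hW0 : W ≠ 0) (hgW : g * W = U)
    (hε : ∀ i, BddDenom (ε i)) (hε0 : ε 0 = 1) (hM : Mexpr μ ε g = 0) : BddDenom g := by
  have _ := hg
  obtain ⟨MW, hMW, W₀, hW₀⟩ := bddDenom_iff.mp hW
  obtain ⟨MU, hMU, U₀, hU₀⟩ := bddDenom_iff.mp hU
  obtain ⟨D, hD, hDe⟩ := exists_common_denom μ ε hε
  choose e he using hDe
  -- the integral coefficients
  set c : ℕ → PowerSeries ℤ := fun i =>
    if h : i ≤ μ then (if i = 0 then 1 else PowerSeries.C ((D : ℕ) : ℤ) ^ (i - 1) * e i h)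
    else 0 with hc
  have hc0 : c 0 = 1 := by
    simp [hc]
  have hci : ∀ i ∈ range (μ + 1), intIncl (c i) = PowerSeries.C ((D : ℕ) : ℂ) ^ i * ε i := by
    intro i hi
    have hi' : i ≤ μ := Nat.lt_succ_iff.mp (mem_range.mp hi)
    rcases Nat.eq_zero_or_pos i with h0 | hpos
    · subst h0
      rw [hc0, map_one, pow_zero, one_mul, hε0]
    · have hne : i ≠ 0 := by omega
      have : c i = PowerSeries.C ((D : ℕ) : ℤ) ^ (i - 1) * e i hi' := by
        simp only [hc, hi', dif_pos, hne, if_false]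
      rw [this, map_mul, map_pow, intIncl_C_natCast, ← he i hi', ← mul_assoc, ← pow_succ,
        Nat.sub_add_cancel hpos]
  set G : PowerSeries ℂ := PowerSeries.C ((D : ℕ) : ℂ) * g with hG
  have hMG : Mexpr μ (fun i => intIncl (c i)) G = 0 := by
    have h1 : Mexpr μ (fun i => intIncl (c i)) G
        = PowerSeries.C ((D : ℕ) : ℂ) ^ μ * Mexpr μ ε g := by
      rw [Mexpr, Mexpr, Finset.mul_sum]
      refine Finset.sum_congr rfl fun i hi => ?_
      have hi' : i ≤ μ := Nat.lt_succ_iff.mp (mem_range.mp hi)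
      rw [hci i hi, hG, mul_pow]
      have : PowerSeries.C ((D : ℕ) : ℂ) ^ μ
          = PowerSeries.C ((D : ℕ) : ℂ) ^ i * PowerSeries.C ((D : ℕ) : ℂ) ^ (μ - i) := by
        rw [← pow_add, Nat.add_sub_cancel' hi']
      rw [this]
      ring
    rw [h1, hM, mul_zero]
  -- numerator and denominator
  set a : PowerSeries ℤ := PowerSeries.C ((MU : ℕ) : ℤ) * W₀ with ha
  set b : PowerSeries ℤ := PowerSeries.C ((D : ℕ) : ℤ) * (PowerSeries.C ((MW : ℕ) : ℤ) * U₀)
    with hb
  have hia : intIncl a = PowerSeries.C ((MU : ℕ) : ℂ) * (PowerSeries.C ((MW : ℕ) : ℂ) * W) := by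
    rw [ha, map_mul, intIncl_C_natCast, ← hW₀]
  have hib : intIncl b = PowerSeries.C ((D : ℕ) : ℂ) *
      (PowerSeries.C ((MW : ℕ) : ℂ) * (PowerSeries.C ((MU : ℕ) : ℂ) * U)) := by
    rw [hb, map_mul, map_mul, intIncl_C_natCast, intIncl_C_natCast, ← hU₀]
  have hCne : ∀ M : ℕ, 0 < M → PowerSeries.C ((M : ℕ) : ℂ) ≠ 0 := by
    intro M hMpos h
    have := congrArg (fun S : PowerSeries ℂ => S.coeff 0) h
    simp only [PowerSeries.coeff_zero_C, map_zero] at this
    exact (Nat.cast_ne_zero.mpr hMpos.ne') this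
  have ha0 : a ≠ 0 := by
    intro h
    have h1 : intIncl a = 0 := by rw [h, map_zero]
    rw [hia] at h1
    exact mul_ne_zero (hCne MU hMU) (mul_ne_zero (hCne MW hMW) hW0) h1
  have hab : G * intIncl a = intIncl b := by
    rw [hia, hib, hG, ← hgW]
    ring
  obtain ⟨y, hy⟩ := exists_intIncl_eq_of_integral μ c hc0 G a b ha0 hab hMG
  exact bddDenom_iff.mpr ⟨D, hD, y, hy⟩

end Fermat.Agent.S23
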