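import Mathlib
import Fermat.Agent.S23.Expr
import Fermat.Agent.S23.LevelOne
import Fermat.Agent.S23.Primitive

/-!
# Coefficientwise application of a `ℚ`-linear map to a power series
-/

open Finset

namespace Fermat.Agent.S23

/-- coefficientwise application of a `ℚ`-linear map -/
noncomputable def mapQ (π : ℂ →ₗ[ℚ] ℂ) : PowerSeries ℂ →ₗ[ℚ] PowerSeries ℂ where
  toFun p := PowerSeries.mk fun n ↦ π (p.coeff n)
  map_add' p q := by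
    ext n
    simp
  map_smul' r p := by
    ext n
    simp

@[simp] theorem coeff_mapQ (π : ℂ →ₗ[ℚ] ℂ) (p : PowerSeries ℂ) (n : ℕ) :
    (mapQ π p).coeff n = π (p.coeff n) := by
  simp [mapQ]

theorem pi_mul_rat (π : ℂ →ₗ[ℚ] ℂ) (a : ℂ) (r : ℚ) : π (a * r) = π a * r := by
  have : a * (r : ℂ) = r • a := by
    rw [Rat.smul_def, mul_comm]
  rw [this, map_smul, Rat.smul_def, mul_comm]

theorem mapQ_mul_rat (π : ℂ →ₗ[ℚ] ℂ) (a r : PowerSeries ℂ) (hr : r ∈ ratSeries) :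
    mapQ π (a * r) = mapQ π a * r := by
  rw [mem_ratSeries_iff] at hr
  ext n
  rw [coeff_mapQ, PowerSeries.coeff_mul, PowerSeries.coeff_mul, map_sum]
  refine Finset.sum_congr rfl fun x _ ↦ ?_
  obtain ⟨q, hq⟩ := hr x.2
  rw [hq, pi_mul_rat, coeff_mapQ]

theorem mapQ_rat_mul (π : ℂ →ₗ[ℚ] ℂ) (a r : PowerSeries ℂ) (hr : r ∈ ratSeries) :
    mapQ π (r * a) = r * mapQ π a := by
  rw [mul_comm, mapQ_mul_rat π a r hr, mul_comm]

theorem mapQ_of_rat (π : ℂ →ₗ[ℚ] ℂ) (hπ : ∀ r : ℚ, π r = r) {p : PowerSeries ℂ}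
    (hp : p ∈ ratSeries) : mapQ π p = p := by
  rw [mem_ratSeries_iff] at hp
  ext n
  obtain ⟨q, hq⟩ := hp n
  rw [coeff_mapQ, hq, hπ]

theorem mapQ_one (π : ℂ →ₗ[ℚ] ℂ) (hπ : ∀ r : ℚ, π r = r) : mapQ π 1 = 1 :=
  mapQ_of_rat π hπ (one_mem _)

theorem neg_one_pow_mem_ratSeries (m : ℕ) : ((-1 : PowerSeries ℂ) ^ m) ∈ ratSeries :=
  pow_mem (neg_mem (one_mem _)) m

/-- `Vexpr μ B h = ∑_{n<μ} B_n h^n` -/
def Vexpr {R : Type*} [CommRing R] (μ : ℕ) (B : ℕ → R) (h : R) : R :=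
  ∑ n ∈ range μ, B n * h ^ n

/-- the coefficients of `Uexpr` as a polynomial in `h` -/
def Bexpr {R : Type*} [CommRing R] (μ : ℕ) (E P : ℕ → R) (n : ℕ) : R :=
  ∑ i ∈ Icc (n + 1) μ, (-1) ^ (μ - i) * E (μ - i) * P (i - (n + 1))

theorem Uexpr_eq_Vexpr {R : Type*} [CommRing R] (μ : ℕ) (E P : ℕ → R) (h : R) :
    Uexpr μ E P h = Vexpr μ (Bexpr μ E P) h := rfl

theorem map_Bexpr {R S : Type*} [CommRing R] [CommRing S] (φ : R →+* S) (μ : ℕ) (E P : ℕ → R)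
    (n : ℕ) : φ (Bexpr μ E P n) = Bexpr μ (fun i ↦ φ (E i)) (fun i ↦ φ (P i)) n := by
  simp [Bexpr, map_sum, map_mul, map_pow]

theorem mapQ_Wexpr (π : ℂ →ₗ[ℚ] ℂ) (μ : ℕ) (E : ℕ → PowerSeries ℂ) {h : PowerSeries ℂ}
    (hh : h ∈ ratSeries) : mapQ π (Wexpr μ E h) = Wexpr μ (fun i ↦ mapQ π (E i)) h := by
  rw [Wexpr, Wexpr, map_sum]
  refine Finset.sum_congr rfl fun n _ ↦ ?_
  rw [mapQ_mul_rat π _ _ (pow_mem hh n), map_sum]
  congr 1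
  refine Finset.sum_congr rfl fun i _ ↦ ?_
  rw [mapQ_mul_rat π _ _ (pow_mem hh _), mapQ_rat_mul π _ _ (neg_one_pow_mem_ratSeries _)]

theorem mapQ_Vexpr (π : ℂ →ₗ[ℚ] ℂ) (μ : ℕ) (B : ℕ → PowerSeries ℂ) {h : PowerSeries ℂ}
    (hh : h ∈ ratSeries) : mapQ π (Vexpr μ B h) = Vexpr μ (fun i ↦ mapQ π (B i)) h := by
  rw [Vexpr, Vexpr, map_sum]
  refine Finset.sum_congr rfl fun n _ ↦ ?_
  rw [mapQ_mul_rat π _ _ (pow_mem hh n)]

theorem mapQ_Mexpr (π : ℂ →ₗ[ℚ] ℂ) (μ : ℕ) (ε : ℕ → PowerSeries ℂ) {f : PowerSeries ℂ}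
    (hf : f ∈ ratSeries) : mapQ π (Mexpr μ ε f) = Mexpr μ (fun i ↦ mapQ π (ε i)) f := by
  rw [Mexpr, Mexpr, map_sum]
  refine Finset.sum_congr rfl fun i _ ↦ ?_
  rw [mapQ_mul_rat π _ _ (pow_mem hf _), mapQ_rat_mul π _ _ (neg_one_pow_mem_ratSeries _)]

/-! ### bounded denominators of the expressions -/

theorem BddDenom.one : BddDenom (1 : PowerSeries ℂ) := by
  refine ⟨1, one_pos, fun n ↦ ?_⟩
  rw [PowerSeries.coeff_one]
  split_ifs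
  · exact ⟨1, by simp⟩
  · exact ⟨0, by simp⟩

theorem BddDenom.neg_one_pow (m : ℕ) : BddDenom ((-1 : PowerSeries ℂ) ^ m) :=
  (BddDenom.one.neg).pow m

theorem BddDenom.sum {ι : Type*} (s : Finset ι) (F : ι → PowerSeries ℂ)
    (hF : ∀ i ∈ s, BddDenom (F i)) : BddDenom (∑ i ∈ s, F i) := by
  classical
  induction s using Finset.induction_on with
  | empty => simpa using BddDenom.zero
  | insert a s ha ih =>
    rw [Finset.sum_insert ha]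
    exact (hF a (Finset.mem_insert_self a s)).add
      (ih fun i hi ↦ hF i (Finset.mem_insert_of_mem hi))

theorem BddDenom.wexpr (μ : ℕ) {E : ℕ → PowerSeries ℂ} {h : PowerSeries ℂ}
    (hE : ∀ i, BddDenom (E i)) (hh : BddDenom h) : BddDenom (Wexpr μ E h) :=
  BddDenom.sum _ _ fun _ _ ↦ (BddDenom.sum _ _ fun _ _ ↦
    ((BddDenom.neg_one_pow _).mul (hE _)).mul (hh.pow _)).mul (hh.pow _)

theorem BddDenom.vexpr (μ : ℕ) {B : ℕ → PowerSeries ℂ} {h : PowerSeries ℂ}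
    (hB : ∀ i, BddDenom (B i)) (hh : BddDenom h) : BddDenom (Vexpr μ B h) :=
  BddDenom.sum _ _ fun _ _ ↦ (hB _).mul (hh.pow _)

theorem BddDenom.mem_ratSeries {p : PowerSeries ℂ} (hp : BddDenom p) : p ∈ ratSeries := by
  rw [mem_ratSeries_iff]
  obtain ⟨M, hM, h⟩ := hp
  intro n
  obtain ⟨m, hm⟩ := h n
  refine ⟨(m : ℚ) / M, ?_⟩
  have hM' : (M : ℂ) ≠ 0 := by exact_mod_cast hM.ne'
  push_cast
  rw [← hm]
  field_simp

end Fermat.Agent.S23
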