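import Mathlib
import Fermat.Agent.S23.PiMap
import Fermat.Agent.S23.Galois
import Fermat.Agent.S23.IntClosed

/-!
# Rational cusp forms on `Γ₀(N)` have bounded denominators
-/

open UpperHalfPlane ModularFormClass CongruenceSubgroup Matrix.SpecialLinearGroup Finset Filter
open scoped MatrixGroups ModularForm Manifold Topology

namespace Fermat.Agent.S23

section vexpr

theorem map_Vexpr {R S : Type*} [CommRing R] [CommRing S] (φ : R →+* S) (μ : ℕ) (B : ℕ → R)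
    (h : R) : φ (Vexpr μ B h) = Vexpr μ (fun i ↦ φ (B i)) (φ h) := by
  simp [Vexpr, map_sum, map_mul, map_pow]

variable (μ : ℕ) {B : ℕ → ℍ → ℂ} {h : ℍ → ℂ}

theorem nice_Vexpr_aux (hB : ∀ i, Nice (B i)) (hh : Nice h) :
    ((Vexpr μ (fun i ↦ (⟨B i, hB i⟩ : niceSubalgebra)) ⟨h, hh⟩ : niceSubalgebra) : ℍ → ℂ) =
      Vexpr μ B h :=
  map_Vexpr (niceSubalgebra.val : niceSubalgebra →+* (ℍ → ℂ)) μ _ _

theorem qExpansion_Vexpr (hB : ∀ i, Nice (B i)) (hh : Nice h) :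
    qExpansion 1 (Vexpr μ B h) = Vexpr μ (fun i ↦ qExpansion 1 (B i)) (qExpansion 1 h) := by
  rw [← nice_Vexpr_aux μ hB hh, ← qExpHom_apply]
  exact map_Vexpr (qExpHom : niceSubalgebra →+* PowerSeries ℂ) μ _ _

end vexpr

/-- the coefficients `B_n` are level-one forms -/
theorem isMFn_Bexpr {k w : ℤ} (μ n : ℕ) {E P : ℕ → ℍ → ℂ}
    (hE : ∀ i : ℕ, IsMFn 𝒮ℒ ((i : ℤ) * w) (E i))
    (hP : ∀ j : ℕ, IsMFn 𝒮ℒ (k + (j : ℤ) * w) (P j)) :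
    IsMFn 𝒮ℒ (k + ((μ - 1 - n : ℕ) : ℤ) * w) (Bexpr μ E P n) := by
  rw [Bexpr]
  refine IsMFn.sum _ _ fun i hi ↦ ?_
  obtain ⟨hi1, hi2⟩ := mem_Icc.mp hi
  refine IsMFn.of_eq ?_ (((hE (μ - i)).neg_one_pow_mul (μ - i)).mul (hP (i - (n + 1))))
  have : ((μ - i : ℕ) : ℤ) + ((i - (n + 1) : ℕ) : ℤ) = ((μ - 1 - n : ℕ) : ℤ) := by omega
  rw [← this]
  ring

/-- a level-one form to which a rational-valued `ℚ`-linear map is applied has bounded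
denominators -/
theorem bddDenom_mapQ_levelOne (π : ℂ →ₗ[ℚ] ℂ) (hπ : ∀ z, ∃ r : ℚ, π z = r) {w : ℤ}
    {c : ℍ → ℂ} (hc : IsMFn 𝒮ℒ w c) : BddDenom (mapQ π (qExpansion 1 c)) := by
  obtain ⟨C, rfl⟩ := hc
  obtain ⟨C', h1, h2⟩ := levelOne_map_aux w π C 1
  have : mapQ π (qExpansion 1 C) = qExpansion 1 C' := by
    ext n
    rw [coeff_mapQ, h1, one_mul]
  rw [this]
  exact h2 hπ

theorem exists_rat_functional (c : ℂ) (hc : c ≠ 0) :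
    ∃ π : ℂ →ₗ[ℚ] ℂ, (∀ z, ∃ r : ℚ, π z = r) ∧ π c ≠ 0 := by
  have h := (Module.forall_dual_apply_eq_zero_iff ℚ c).not.mpr hc
  push Not at h
  obtain ⟨ℓ, hℓ⟩ := h
  refine ⟨(Algebra.linearMap ℚ ℂ) ∘ₗ ℓ, fun z ↦ ⟨ℓ z, by simp⟩, ?_⟩
  simpa using hℓ

variable (N : ℕ) [NeZero N]

theorem bddDenom_deltaN : BddDenom (qExpansion 1 (deltaN N)) := by
  obtain ⟨M, hM, h⟩ := bddDenom_discriminant
  refine ⟨M, hM, fun n ↦ ?_⟩
  rw [qExpansion_deltaN_coeff]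
  split_ifs with hn
  · obtain ⟨m, hm⟩ := h (n / N)
    refine ⟨(N : ℤ) ^ 11 * m, ?_⟩
    push_cast
    rw [← hm]
    ring
  · exact ⟨0, by simp⟩

variable {N}

/-- **Bounded denominators.** -/
theorem bddDenom_of_rat {k : ℤ} (f : CuspForm (Γ0 N) k)
    (hf : ∀ n, ∃ r : ℚ, (qExpansion 1 f).coeff n = r) : BddDenom (qExpansion 1 f) := by
  set h : ModularForm (Γ0 N) 12 := deltaN N with hhdef
  have hdist : ∀ q : Q N, q ≠ q₀ N → cj h q ≠ h := fun q hq ↦ quotientFunc_deltaN_ne N q hq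
  have hhB : BddDenom (qExpansion 1 h) := bddDenom_deltaN N
  have hhR : qExpansion 1 h ∈ ratSeries := hhB.mem_ratSeries
  have hfR : qExpansion 1 f ∈ ratSeries := mem_ratSeries_iff.mpr hf
  set fM : ModularForm (Γ0 N) k := (f : ModularForm (Γ0 N) k) with hfM
  have hfMcoe : (fM : ℍ → ℂ) = f := rfl
  set μ := μQ N with hμ
  have hE : ∀ i : ℕ, IsMFn 𝒮ℒ ((i : ℤ) * 12) (Efun h i) := fun i ↦ isMFn_Efun h i
  have hP : ∀ j : ℕ, IsMFn 𝒮ℒ (k + (j : ℤ) * 12) (Pfun fM h j) := fun j ↦ isMFn_Pfun fM h j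
  have hε : ∀ i : ℕ, IsMFn 𝒮ℒ ((i : ℤ) * k) (Efun fM i) := fun i ↦ isMFn_Efun fM i
  have hB : ∀ n : ℕ, IsMFn 𝒮ℒ (k + ((μ - 1 - n : ℕ) : ℤ) * 12)
      (Bexpr μ (Efun h) (Pfun fM h) n) := fun n ↦ isMFn_Bexpr μ n hE hP
  have hhN : Nice (h : ℍ → ℂ) := (IsMFn.coe h).nice_Γ0
  have hfN : Nice (f : ℍ → ℂ) := (IsMFn.coe fM).nice_Γ0
  have hEN : ∀ i, Nice (Efun h i) := fun i ↦ (hE i).nice_levelOne
  have hBN : ∀ n, Nice (Bexpr μ (Efun h) (Pfun fM h) n) := fun n ↦ (hB n).nice_levelOne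
  have hεN : ∀ i, Nice (Efun fM i) := fun i ↦ (hε i).nice_levelOne
  set W := Wfun h with hWdef
  set U := Ufun fM h with hUdef
  have hWN : Nice W := nice_Wexpr μ hEN hhN
  have hqW : qExpansion 1 W = Wexpr μ (fun i ↦ qExpansion 1 (Efun h i)) (qExpansion 1 h) :=
    qExpansion_Wexpr μ hEN hhN
  have hqU : qExpansion 1 U =
      Vexpr μ (fun n ↦ qExpansion 1 (Bexpr μ (Efun h) (Pfun fM h) n)) (qExpansion 1 h) := by
    rw [hUdef, Ufun, Uexpr_eq_Vexpr]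
    exact qExpansion_Vexpr μ hBN hhN
  have hUW : (f : ℍ → ℂ) * W = U := mul_Wfun fM h
  have hqUW : qExpansion 1 f * qExpansion 1 W = qExpansion 1 U := by
    rw [← hUW, qExpansion_mul_nice hfN hWN]
  have hW0 : W ≠ 0 := Wfun_ne_zero h hdist
  have hqW0 : qExpansion 1 W ≠ 0 := fun h0 ↦ hW0 (hWN.qExpansion_eq_zero_iff.mp h0)
  obtain ⟨n₀, hn₀⟩ : ∃ n₀, (qExpansion 1 W).coeff n₀ ≠ 0 := by
    by_contra hcon
    push Not at hcon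
    exact hqW0 (PowerSeries.ext fun n ↦ by rw [hcon n, map_zero])
  obtain ⟨π₁, hπ₁, hπ₁c⟩ := exists_rat_functional _ hn₀
  obtain ⟨π₂, hπ₂, hπ₂r⟩ := exists_rat_retraction
  -- the data for T2
  have hW₁ : BddDenom (mapQ π₁ (qExpansion 1 W)) := by
    rw [hqW, mapQ_Wexpr π₁ μ _ hhR]
    exact BddDenom.wexpr μ (fun i ↦ bddDenom_mapQ_levelOne π₁ hπ₁ (hE i)) hhB
  have hU₁ : BddDenom (mapQ π₁ (qExpansion 1 U)) := by
    rw [hqU, mapQ_Vexpr π₁ μ _ hhR]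
    exact BddDenom.vexpr μ (fun n ↦ bddDenom_mapQ_levelOne π₁ hπ₁ (hB n)) hhB
  have hW₁0 : mapQ π₁ (qExpansion 1 W) ≠ 0 := by
    intro h0
    apply hπ₁c
    rw [← coeff_mapQ, h0, map_zero]
  have hfW₁ : qExpansion 1 f * mapQ π₁ (qExpansion 1 W) = mapQ π₁ (qExpansion 1 U) := by
    rw [← mapQ_rat_mul π₁ _ _ hfR, hqUW]
  have hε₂ : ∀ i, BddDenom (mapQ π₂ (qExpansion 1 (Efun fM i))) := fun i ↦
    bddDenom_mapQ_levelOne π₂ hπ₂ (hε i)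
  have hε₂0 : mapQ π₂ (qExpansion 1 (Efun fM 0)) = 1 := by
    rw [Efun_zero, qExpansion_one, mapQ_one π₂ hπ₂r]
  have hM : Mexpr μ (fun i ↦ mapQ π₂ (qExpansion 1 (Efun fM i))) (qExpansion 1 f) = 0 := by
    rw [← mapQ_Mexpr π₂ μ _ hfR, ← qExpansion_Mexpr μ hεN hfN, ← hfMcoe, Mexpr_Efun fM,
      qExpansion_zero, map_zero]
  exact bddDenom_of_frac_of_integral μ (qExpansion 1 f) _ _ _ hf hW₁ hU₁ hW₁0 hfW₁ hε₂ hε₂0 hM

end Fermat.Agent.S23
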