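import Mathlib
import Fermat.Agent.S22
import Fermat.Agent.S23.Conj

/-!
# Finite-dimensionality of `S₂(Γ₀(N))` (from the period lattice of S22) and the coefficient
functionals
-/

open UpperHalfPlane ModularFormClass CongruenceSubgroup Matrix.SpecialLinearGroup
open scoped MatrixGroups ModularForm Manifold

namespace Fermat.Agent.S23

theorem finiteDimensional_of_lattice {V : Type*} [AddCommGroup V] [Module ℂ V]
    (Λ : Submodule ℤ (V →ₗ[ℂ] ℂ)) (hfg : Λ.FG)
    (hsep : ∀ v : V, (∀ φ ∈ Λ, φ v = 0) → v = 0) : FiniteDimensional ℂ V := by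
  obtain ⟨s, hs⟩ := hfg
  let L : V →ₗ[ℂ] (s → ℂ) := LinearMap.pi fun φ : s ↦ (φ : V →ₗ[ℂ] ℂ)
  have hinj : Function.Injective L := by
    rw [injective_iff_map_eq_zero]
    intro v hv
    apply hsep
    intro φ hφ
    rw [← hs] at hφ
    induction hφ using Submodule.span_induction with
    | mem x hx =>
      have := congrFun hv ⟨x, hx⟩
      simpa [L] using this
    | zero => simp
    | add x y _ _ hx hy => simp [hx, hy]
    | smul a x _ hx => simp [hx]
  exact FiniteDimensional.of_injective L hinj

variable (N : ℕ) [NeZero N]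

theorem finiteDimensional_cuspForm (m : ℕ) :
    FiniteDimensional ℂ (CuspForm (CongruenceSubgroup.Gamma0 N) ((m : ℤ) + 2)) :=
  finiteDimensional_of_lattice (Fermat.Agent.S22.lattice N m) (Fermat.Agent.S22.lattice_fg N m)
    (Fermat.Agent.S22.lattice_separates N m)

theorem finiteDimensional_cuspForm_two :
    FiniteDimensional ℂ (CuspForm (CongruenceSubgroup.Gamma0 N) 2) :=
  finiteDimensional_cuspForm N 0

end Fermat.Agent.S23
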