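import Mathlib

/-!
# The fixed field of `Aut(ℂ)` is `ℚ`

`exists_ringEquiv_ne`: every complex number which is not rational is moved by some field
automorphism of `ℂ`.
-/

open MvPolynomial

namespace Fermat.Agent.S23

section core

variable {A Ω : Type*} [Field A] [Field Ω] [Algebra A Ω] [IsAlgClosed Ω]

/-- Extending an automorphism of the polynomial ring on a transcendence basis to the
algebraically closed field. -/
theorem exists_ringEquiv_aeval {ι : Type*} (x : ι → Ω) (hx : IsTranscendenceBasis A x)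
    (e : MvPolynomial ι A ≃+* MvPolynomial ι A) :
    ∃ σ : Ω ≃+* Ω, ∀ P : MvPolynomial ι A, σ (aeval x P) = aeval x (e P) := by
  let _ := IsAlgClosed.isAlgClosure_of_transcendence_basis x hx
  let φ : MvPolynomial ι A ≃+* Algebra.adjoin A (Set.range x) := hx.1.aevalEquiv.toRingEquiv
  let e' : Algebra.adjoin A (Set.range x) ≃+* Algebra.adjoin A (Set.range x) :=
    φ.symm.trans (e.trans φ)
  refine ⟨IsAlgClosure.equivOfEquiv Ω Ω e', fun P => ?_⟩
  have h1 : aeval x P = algebraMap (Algebra.adjoin A (Set.range x)) Ω (φ P) := rfl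
  have h2 : aeval x (e P) = algebraMap (Algebra.adjoin A (Set.range x)) Ω (φ (e P)) := rfl
  rw [h1, h2, IsAlgClosure.equivOfEquiv_algebraMap]
  congr 1
  simp [e']

end core

/-- Every transcendental complex number is moved by some automorphism of `ℂ`. -/
theorem exists_ringEquiv_ne_of_transcendental (z : ℂ) (hz : Transcendental ℚ z) :
    ∃ σ : ℂ ≃+* ℂ, σ z ≠ z := by
  classical
  have hind : AlgebraicIndepOn ℚ id ({z} : Set ℂ) := by
    have := (algebraicIndependent_singleton_iff (R := ℚ) (ι := ({z} : Set ℂ))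
      (x := fun i => (i : ℂ)) ⟨z, rfl⟩).mpr hz
    exact this
  obtain ⟨t, hzt, ht⟩ := exists_isTranscendenceBasis_superset hind
  let z₀ : t := ⟨z, hzt rfl⟩
  let f : MvPolynomial t ℚ →ₐ[ℚ] MvPolynomial t ℚ :=
    aeval fun i => if i = z₀ then X i + 1 else X i
  let g : MvPolynomial t ℚ →ₐ[ℚ] MvPolynomial t ℚ :=
    aeval fun i => if i = z₀ then X i - 1 else X i
  have hfg : f.comp g = AlgHom.id ℚ _ := by
    ext i
    by_cases hi : i = z₀ <;> simp [f, g, hi]
  have hgf : g.comp f = AlgHom.id ℚ _ := by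
    ext i
    by_cases hi : i = z₀ <;> simp [f, g, hi]
  let e : MvPolynomial t ℚ ≃ₐ[ℚ] MvPolynomial t ℚ := AlgEquiv.ofAlgHom f g hfg hgf
  obtain ⟨σ, hσ⟩ := exists_ringEquiv_aeval (fun i : t => (i : ℂ)) ht e.toRingEquiv
  refine ⟨σ, ?_⟩
  have h := hσ (X z₀)
  simp only [aeval_X] at h
  have h2 : e.toRingEquiv (X z₀) = X z₀ + 1 := by simp [e, f]
  rw [h2] at h
  simp only [map_add, aeval_X, map_one] at h
  have h3 : ((z₀ : t) : ℂ) = z := rfl
  rw [h3] at h
  rw [h]
  simp

local notation "Qbar" => (algebraicClosure ℚ ℂ)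

set_option backward.isDefEq.respectTransparency false in
/-- Every algebraic, non rational complex number is moved by some automorphism of `ℂ`. -/
theorem exists_ringEquiv_ne_of_isAlgebraic (z : ℂ) (hz : IsAlgebraic ℚ z)
    (hq : z ∉ Set.range ((↑) : ℚ → ℂ)) : ∃ σ : ℂ ≃+* ℂ, σ z ≠ z := by
  classical
  let z' : Qbar := ⟨z, (mem_algebraicClosure_iff (F := ℚ) (E := ℂ)).mpr hz⟩
  have hz' : IsAlgebraic ℚ z' := Algebra.IsAlgebraic.isAlgebraic z'
  have hint : IsIntegral ℚ z' := hz'.isIntegral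
  -- the minimal polynomial has degree at least `2`
  have hdeg : 2 ≤ (minpoly ℚ z').natDegree := by
    have h1 : 0 < (minpoly ℚ z').natDegree := minpoly.natDegree_pos hint
    have h2 : (minpoly ℚ z').natDegree ≠ 1 := by
      intro h
      obtain ⟨r, hr⟩ := (minpoly.natDegree_eq_one_iff (A := ℚ) (B := Qbar)).mp h
      apply hq
      refine ⟨r, ?_⟩
      have := congrArg (fun a : Qbar => (a : ℂ)) hr
      simpa [z'] using this
    omega
  -- another root
  have hsep : (minpoly ℚ z').Separable := (minpoly.irreducible hint).separable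
  have hac : IsAlgClosed Qbar := (algebraicClosure.isAlgClosure (F := ℚ) (E := ℂ)).isAlgClosed
  have hsplit : ((minpoly ℚ z').map (algebraMap ℚ Qbar)).Splits := IsAlgClosed.splits _
  have hcard := Polynomial.card_rootSet_eq_natDegree hsep hsplit
  have hex : ∃ y ∈ (minpoly ℚ z').rootSet Qbar, y ≠ z' := by
    by_contra hcon
    push Not at hcon
    have hsub : Fintype.card ((minpoly ℚ z').rootSet Qbar) ≤ 1 := by
      rw [Fintype.card_le_one_iff]
      rintro ⟨a, ha⟩ ⟨b, hb⟩
      exact Subtype.ext ((hcon a ha).trans (hcon b hb).symm)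
    omega
  obtain ⟨y, hy, hyz⟩ := hex
  have hy0 : Polynomial.aeval y (minpoly ℚ z') = 0 := (Polynomial.mem_rootSet.mp hy).2
  obtain ⟨σ₀, hσ₀⟩ := minpoly.exists_algEquiv_of_root' (K := ℚ) (L := Qbar) hz' hy0
  -- extend to `ℂ`
  obtain ⟨ι, x, hx⟩ := exists_isTranscendenceBasis' Qbar ℂ
  obtain ⟨σ, hσ⟩ := exists_ringEquiv_aeval x hx (MvPolynomial.mapEquiv ι σ₀.toRingEquiv)
  refine ⟨σ, ?_⟩
  have h := hσ (C z')
  simp only [aeval_C, mapEquiv_apply, map_C] at h
  have h1 : algebraMap Qbar ℂ z' = z := rfl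
  rw [h1] at h
  rw [h]
  intro h2
  apply hyz
  apply Subtype.ext
  have h3 : σ₀ z' = y := hσ₀
  have h4 : ((σ₀.toRingEquiv : Qbar →+* Qbar) z') = y := h3
  rw [h4] at h2
  exact h2

/-- **The fixed field of `Aut(ℂ)` is `ℚ`.** -/
theorem exists_ringEquiv_ne (z : ℂ) (hz : z ∉ Set.range ((↑) : ℚ → ℂ)) :
    ∃ σ : ℂ ≃+* ℂ, σ z ≠ z := by
  by_cases h : IsAlgebraic ℚ z
  · exact exists_ringEquiv_ne_of_isAlgebraic z h hz
  · exact exists_ringEquiv_ne_of_transcendental z h

end Fermat.Agent.S23
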