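import Mathlib
import Fermat.Agent.S23.AutC

/-!
# S23, piece T3: Galois descent for a finite dimensional space with coordinates

If a finite dimensional complex vector space `V` has a separating family of linear forms `a n`
such that for every `σ ∈ Aut(ℂ)` and `v ∈ V` there is `v'` with `a n v' = σ (a n v)`, then `V` is
spanned by the vectors all of whose coordinates `a n v` are rational.
-/

set_option autoImplicit false

namespace Fermat.Agent.S23

open Module

/-- **T3.** -/
theorem span_rational_eq_top {V : Type*} [AddCommGroup V] [Module ℂ V] [FiniteDimensional ℂ V]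
    (a : ℕ → V →ₗ[ℂ] ℂ) (ha : ∀ v, (∀ n, a n v = 0) → v = 0)
    (hσ : ∀ (σ : ℂ ≃+* ℂ) (v : V), ∃ v' : V, ∀ n, a n v' = σ (a n v)) :
    Submodule.span ℂ {v : V | ∀ n, ∃ r : ℚ, a n v = r} = ⊤ := by
  classical
  -- the `a n` span the dual
  have hspan : Submodule.span ℂ (Set.range a) = (⊤ : Submodule ℂ (Dual ℂ V)) := by
    have h1 : (Submodule.span ℂ (Set.range a)).dualCoannihilator = ⊥ := by
      rw [eq_bot_iff]
      intro v hv
      rw [Submodule.mem_dualCoannihilator] at hv
      rw [Submodule.mem_bot]
      exact ha v (fun n => hv (a n) (Submodule.subset_span ⟨n, rfl⟩))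
    have h2 := Subspace.dualCoannihilator_dualAnnihilator_eq
      (W := Submodule.span ℂ (Set.range a))
    rw [h1, Submodule.dualAnnihilator_bot] at h2
    exact h2.symm
  -- extract a basis of the dual from the `a n`
  obtain ⟨b, hb_sub, hb_span, hb_li⟩ := exists_linearIndependent ℂ (Set.range a)
  rw [hspan] at hb_span
  have hb_fin : b.Finite := hb_li.setFinite
  haveI : Finite b := hb_fin.to_subtype
  haveI : Fintype b := Fintype.ofFinite b
  let B : Basis b ℂ (Dual ℂ V) := Basis.mk hb_li (by
    rw [Subtype.range_coe_subtype]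
    exact (le_of_eq hb_span.symm))
  have hB : ∀ i : b, (B i : Dual ℂ V) = (i : Dual ℂ V) := fun i => by
    simp [B]
  -- every basis element is some `a n`
  have hBa : ∀ i : b, ∃ n, a n = B i := fun i => by
    obtain ⟨n, hn⟩ := hb_sub i.2
    exact ⟨n, by rw [hn, hB]⟩
  choose idx hidx using hBa
  -- the dual basis, transported to `V`
  let F : Basis b ℂ V := B.dualBasis.map (Module.evalEquiv ℂ V).symm
  have hF : ∀ i j : b, B i (F j) = if i = j then 1 else 0 := by
    intro i j
    have h1 : (Module.evalEquiv ℂ V) (F j) = B.dualBasis j := by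
      simp [F]
    have h2 : (Module.evalEquiv ℂ V) (F j) (B i) = B i (F j) := by
      simp
    rw [← h2, h1, Basis.dualBasis_apply_self]
  -- two vectors with the same `B`-coordinates are equal
  have hsep : ∀ v w : V, (∀ i : b, B i v = B i w) → v = w := by
    intro v w h
    have h0 : v - w = 0 := by
      rw [← Module.forall_dual_apply_eq_zero_iff ℂ]
      intro φ
      have hφ : φ ∈ Submodule.span ℂ (Set.range B) := by
        rw [B.span_eq]; trivial
      induction hφ using Submodule.span_induction with
      | mem x hx =>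
        obtain ⟨i, rfl⟩ := hx
        rw [map_sub, h i, sub_self]
      | zero => simp
      | add x y _ _ hx hy => rw [LinearMap.add_apply, hx, hy, add_zero]
      | smul c x _ hx => rw [LinearMap.smul_apply, hx, smul_zero]
    exact sub_eq_zero.mp h0
  -- the coordinates of `F j` are fixed by all automorphisms
  have hfix : ∀ (j : b) (σ : ℂ ≃+* ℂ) (n : ℕ), σ (a n (F j)) = a n (F j) := by
    intro j σ n
    obtain ⟨v', hv'⟩ := hσ σ (F j)
    have hv'F : v' = F j := by
      apply hsep
      intro i
      rw [← hidx i, hv', hidx i, hF]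
      split_ifs <;> simp
    rw [← hv' n, hv'F]
  -- hence rational
  have hrat : ∀ (j : b) (n : ℕ), ∃ r : ℚ, a n (F j) = r := by
    intro j n
    by_contra hcon
    have hz : a n (F j) ∉ Set.range ((↑) : ℚ → ℂ) := by
      rintro ⟨r, hr⟩
      exact hcon ⟨r, hr.symm⟩
    obtain ⟨σ, hσ'⟩ := exists_ringEquiv_ne (a n (F j)) hz
    exact hσ' (hfix j σ n)
  -- conclusion
  rw [eq_top_iff, ← F.span_eq]
  refine Submodule.span_mono ?_
  rintro v ⟨j, rfl⟩
  exact hrat j
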